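import Mathlib

/-!
# Traces of powers of `2 × 2` matrices (Lucas sequences)

`lucas a b j` is the sequence `2, a, a² - 2b, …` with `V_{j+2} = a V_{j+1} - b V_j`.
For a `2 × 2` matrix `M` one has `tr (M ^ j) = lucas (tr M) (det M) j`, and for an invertible
element `x` of a ring with `x² - t x + d = 0` (`t`, `d` central) one has
`x ^ j + d ^ j x ^ (-j) = lucas t d j`.
-/

set_option autoImplicit false

namespace Fermat.Agent.S31

/-- The Lucas sequence `V_j(a, b)`. -/
def lucas {R : Type*} [CommRing R] (a b : R) : ℕ → R
  | 0 => 2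
  | 1 => a
  | (n + 2) => a * lucas a b (n + 1) - b * lucas a b n

@[simp] theorem lucas_zero {R : Type*} [CommRing R] (a b : R) : lucas a b 0 = 2 := rfl

@[simp] theorem lucas_one {R : Type*} [CommRing R] (a b : R) : lucas a b 1 = a := rfl

theorem lucas_add_two {R : Type*} [CommRing R] (a b : R) (n : ℕ) :
    lucas a b (n + 2) = a * lucas a b (n + 1) - b * lucas a b n := rfl

theorem map_lucas {R R' : Type*} [CommRing R] [CommRing R'] (f : R →+* R') (a b : R) (n : ℕ) :
    f (lucas a b n) = lucas (f a) (f b) n := by
  induction n using Nat.strong_induction_on with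
  | _ n ih =>
    match n with
    | 0 => simp [lucas, map_ofNat]
    | 1 => simp [lucas]
    | (n + 2) =>
      rw [lucas_add_two, lucas_add_two, map_sub, map_mul, map_mul, ih (n + 1) (by omega),
        ih n (by omega)]

/-- Congruence of Lucas sequences modulo an ideal. -/
theorem lucas_sub_mem {R : Type*} [CommRing R] (I : Ideal R) {a b a' b' : R} (ha : a - a' ∈ I)
    (hb : b - b' ∈ I) (n : ℕ) : lucas a b n - lucas a' b' n ∈ I := by
  induction n using Nat.strong_induction_on with
  | _ n ih =>
    match n with
    | 0 => simp [lucas]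
    | 1 => simpa [lucas] using ha
    | (n + 2) =>
      rw [lucas_add_two, lucas_add_two]
      have h1 := ih (n + 1) (by omega)
      have h2 := ih n (by omega)
      have e : a * lucas a b (n + 1) - b * lucas a b n -
          (a' * lucas a' b' (n + 1) - b' * lucas a' b' n) =
          (a - a') * lucas a b (n + 1) + a' * (lucas a b (n + 1) - lucas a' b' (n + 1))
            - ((b - b') * lucas a b n + b' * (lucas a b n - lucas a' b' n)) := by ring
      rw [e]
      exact I.sub_mem (I.add_mem (I.mul_mem_right _ ha) (I.mul_mem_left _ h1))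
        (I.add_mem (I.mul_mem_right _ hb) (I.mul_mem_left _ h2))

/-- Cayley–Hamilton for `2 × 2` matrices. -/
theorem matrix_two_sq {R : Type*} [CommRing R] (M : Matrix (Fin 2) (Fin 2) R) :
    M * M = M.trace • M - M.det • (1 : Matrix (Fin 2) (Fin 2) R) := by
  ext i j
  fin_cases i <;> fin_cases j <;>
    simp [Matrix.mul_apply, Fin.sum_univ_two, Matrix.trace_fin_two, Matrix.det_fin_two] <;> ring

theorem matrix_two_pow_add_two {R : Type*} [CommRing R] (M : Matrix (Fin 2) (Fin 2) R) (n : ℕ) :
    M ^ (n + 2) = M.trace • M ^ (n + 1) - M.det • M ^ n := by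
  have h : M ^ (n + 2) = M ^ n * (M * M) := by rw [← pow_two, ← pow_add]
  rw [h, matrix_two_sq, mul_sub, Matrix.mul_smul, Matrix.mul_smul, mul_one, ← pow_succ]

/-- `tr (M ^ j) = V_j (tr M, det M)` for `2 × 2` matrices. -/
theorem trace_pow_eq_lucas {R : Type*} [CommRing R] (M : Matrix (Fin 2) (Fin 2) R) (n : ℕ) :
    (M ^ n).trace = lucas M.trace M.det n := by
  induction n using Nat.strong_induction_on with
  | _ n ih =>
    match n with
    | 0 => simp [lucas]
    | 1 => simp [lucas]
    | (n + 2) =>
      rw [matrix_two_pow_add_two, Matrix.trace_sub, Matrix.trace_smul, Matrix.trace_smul,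
        ih (n + 1) (by omega), ih n (by omega), lucas_add_two]
      simp [smul_eq_mul]

/-- Reading off trace and determinant from the characteristic polynomial of a `2 × 2` matrix. -/
theorem trace_det_of_charpoly {R : Type*} [CommRing R] [Nontrivial R]
    (M : Matrix (Fin 2) (Fin 2) R) {a b : R}
    (h : M.charpoly = Polynomial.X ^ 2 - Polynomial.C a * Polynomial.X + Polynomial.C b) :
    M.trace = a ∧ M.det = b := by
  rw [Matrix.charpoly_fin_two] at h
  have h1 := congrArg (fun P : Polynomial R => P.coeff 1) h
  have h0 := congrArg (fun P : Polynomial R => P.coeff 0) h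
  simp [Polynomial.coeff_X, Polynomial.coeff_C, Polynomial.coeff_X_pow] at h1 h0
  exact ⟨h1, h0⟩

/-- In any ring: if `x` is invertible with inverse `y`, `t` and `d` commute with `x`, and
`x + d y = t`, then `x ^ j + d ^ j y ^ j` is given by the Lucas recursion. We state it for a
commutative subring situation: `A` an `R`-algebra, `t d : R`. -/
theorem pow_add_pow_eq_lucas {R A : Type*} [CommRing R] [Ring A] [Algebra R A] (x y : A)
    (hxy : x * y = 1) (hyx : y * x = 1) (t d : R)
    (h : x + d • y = algebraMap R A t) (n : ℕ) :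
    x ^ n + d ^ n • y ^ n = algebraMap R A (lucas t d n) := by
  have hcomm : Commute x y := by
    show x * y = y * x
    rw [hxy, hyx]
  induction n using Nat.strong_induction_on with
  | _ n ih =>
    match n with
    | 0 =>
      simp only [pow_zero, one_smul, lucas_zero]
      rw [map_ofNat]
      norm_num
    | 1 => simpa [lucas] using h
    | (n + 2) =>
      have h1 := ih (n + 1) (by omega)
      have h2 := ih n (by omega)
      rw [lucas_add_two, map_sub, map_mul, map_mul, ← h1, ← h2, ← h]
      have e2 : x * y ^ (n + 1) = y ^ n := by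
        rw [pow_succ', ← mul_assoc, hxy, one_mul]
      have e3 : y * x ^ (n + 1) = x ^ n := by
        rw [pow_succ', ← mul_assoc, hyx, one_mul]
      have t1 : x * x ^ (n + 1) = x ^ (n + 2) := (pow_succ' x (n + 1)).symm
      have t2 : x * (d ^ (n + 1) • y ^ (n + 1)) = d ^ (n + 1) • y ^ n := by
        rw [mul_smul_comm, e2]
      have t3 : (d • y) * x ^ (n + 1) = d • x ^ n := by rw [smul_mul_assoc, e3]
      have t4 : (d • y) * (d ^ (n + 1) • y ^ (n + 1)) = d ^ (n + 2) • y ^ (n + 2) := by
        rw [smul_mul_smul_comm, ← pow_succ', ← pow_succ']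
      have e1 : (x + d • y) * (x ^ (n + 1) + d ^ (n + 1) • y ^ (n + 1))
          = x ^ (n + 2) + d ^ (n + 2) • y ^ (n + 2)
            + (d ^ (n + 1) • y ^ n + d • x ^ n) := by
        rw [add_mul, mul_add, mul_add, t1, t2, t3, t4]
        abel
      rw [e1]
      have e4 : algebraMap R A d * (x ^ n + d ^ n • y ^ n)
          = d ^ (n + 1) • y ^ n + d • x ^ n := by
        rw [Algebra.algebraMap_eq_smul_one, smul_mul_assoc, one_mul, smul_add, smul_smul,
          ← pow_succ', add_comm]
      rw [e4]
      abel

end Fermat.Agent.S31
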