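import Mathlib
import Fermat.Prelude.Def_CuspForm_HeckeGaloisRepDatum
import Fermat.Agent.Lib.GalRep.TraceRigid
import Fermat.Agent.Frob.Main
import Fermat.Agent.S31.Lucas

/-!
# S31, abstract core

`rho_eq_one_of_pseudoChar`: let `ρ` be a residually absolutely irreducible adic Galois
representation over a local ring `T` with `⋂ 𝔪ⁿ = 0`, and `τ ∈ G_ℚ`.  Suppose that for every `n`
there is a function `u : G_ℚ → T` which modulo `𝔪ⁿ`

* factors through a finite level,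
* agrees with the trace of `ρ` on all powers of Frobenius lifts at almost all primes,
* is invariant under right translation by `τ`.

Then `ρ τ = 1`.  (Frobenius density + "the trace form is perfect".)

`isUnramifiedAt_of_heckePseudoChar`: the frozen statement S31 from the existence of such
functions with values in the Hecke algebra (`HeckePseudoChar`).
-/

set_option autoImplicit false

namespace Fermat.Agent.S31

local notation "Qb" => AlgebraicClosure ℚ
local notation "GQ" => (AlgebraicClosure ℚ ≃ₐ[ℚ] AlgebraicClosure ℚ)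

section Linear

variable {R : Type*} [CommRing R]

/-- Coordinates of an element of `I • ⊤` lie in `I`. -/
theorem repr_mem_of_mem_smul_top {V : Type*} [AddCommGroup V] [Module R V] {ι : Type*}
    (b : Module.Basis ι R V) (I : Ideal R) {w : V} (hw : w ∈ I • (⊤ : Submodule R V)) (i : ι) :
    b.repr w i ∈ I := by
  refine Submodule.smul_induction_on (p := fun w => b.repr w i ∈ I) hw ?_ ?_
  · intro r hr v _
    rw [map_smul, Finsupp.smul_apply, smul_eq_mul]
    exact I.mul_mem_right _ hr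
  · intro x y hx hy
    rw [map_add, Finsupp.add_apply]
    exact I.add_mem hx hy

/-- A linear map preserves `I • ⊤`. -/
theorem map_mem_smul_top {V : Type*} [AddCommGroup V] [Module R V] (I : Ideal R)
    (f : Module.End R V) {w : V} (hw : w ∈ I • (⊤ : Submodule R V)) :
    f w ∈ I • (⊤ : Submodule R V) := by
  refine Submodule.smul_induction_on (p := fun w => f w ∈ I • (⊤ : Submodule R V)) hw ?_ ?_
  · intro r hr v _
    rw [map_smul]
    exact Submodule.smul_mem_smul hr Submodule.mem_top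
  · intro x y hx hy
    rw [map_add]
    exact Submodule.add_mem _ hx hy

/-- Two endomorphisms of a finite free module which are congruent modulo `I` have congruent
traces. -/
theorem trace_sub_mem {V : Type*} [AddCommGroup V] [Module R V] [Module.Free R V]
    [Module.Finite R V] (I : Ideal R) (f f' : Module.End R V)
    (h : ∀ v, f v - f' v ∈ I • (⊤ : Submodule R V)) :
    LinearMap.trace R V f - LinearMap.trace R V f' ∈ I := by
  classical
  let b := Module.Free.chooseBasis R V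
  rw [← map_sub, LinearMap.trace_eq_matrix_trace R b, Matrix.trace]
  refine I.sum_mem fun i _ => ?_
  rw [Matrix.diag_apply, LinearMap.toMatrix_apply]
  exact repr_mem_of_mem_smul_top b I (by simpa using h (b i)) i

end Linear

section Core

variable {T : Type} [CommRing T] [IsLocalRing T]

/-- If `g` and `g'` agree on a level `L` of `ρ` modulo `𝔪ⁿ`, their traces are congruent. -/
theorem trace_sub_mem_of_agree (ρ : GaloisRepAdic T) (n : ℕ) (L : IntermediateField ℚ Qb)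
    (hL : ∀ σ : GQ, (∀ x ∈ L, σ x = x) →
      ∀ v : ρ.V, ρ.ρ σ v - v ∈ (IsLocalRing.maximalIdeal T ^ n) • (⊤ : Submodule T ρ.V))
    (g g' : GQ) (hgg' : ∀ x ∈ L, g x = g' x) :
    LinearMap.trace T ρ.V (ρ.ρ g) - LinearMap.trace T ρ.V (ρ.ρ g') ∈
      IsLocalRing.maximalIdeal T ^ n := by
  refine trace_sub_mem _ _ _ fun v => ?_
  have hfix : ∀ x ∈ L, (g'⁻¹ * g) x = x := by
    intro x hx
    rw [AlgEquiv.mul_apply, hgg' x hx]
    exact g'.symm_apply_apply x
  have e : ρ.ρ g v - ρ.ρ g' v = ρ.ρ g' (ρ.ρ (g'⁻¹ * g) v - v) := by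
    rw [map_sub, ← Module.End.mul_apply, ← map_mul, mul_inv_cancel_left]
  rw [e]
  exact map_mem_smul_top _ _ (hL _ hfix v)

/-- **Abstract core of S31.** -/
theorem rho_eq_one_of_pseudoChar (hT : ⨅ n : ℕ, IsLocalRing.maximalIdeal T ^ n = ⊥)
    (ρ : GaloisRepAdic T) (habs : ρ.residual.IsAbsolutelyIrreducible) (τ : GQ)
    (h : ∀ n : ℕ, ∃ (F : IntermediateField ℚ Qb) (_ : FiniteDimensional ℚ F) (S : Finset ℕ)
      (u : GQ → T),
      (∀ g g' : GQ, (∀ x ∈ F, g x = g' x) → u g - u g' ∈ IsLocalRing.maximalIdeal T ^ n) ∧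
      (∀ ℓ : ℕ, ℓ.Prime → ℓ ∉ S → ∀ (A : ValuationSubring Qb) (σ : GQ), A.LiesOverPrime ℓ →
        A.IsFrobeniusAt σ ℓ → ∀ j : ℕ,
          u (σ ^ j) - LinearMap.trace T ρ.V (ρ.ρ (σ ^ j)) ∈ IsLocalRing.maximalIdeal T ^ n) ∧
      (∀ g : GQ, u (g * τ) - u g ∈ IsLocalRing.maximalIdeal T ^ n)) :
    ρ.ρ τ = 1 := by
  refine Fermat.Agent.Lib.GalRep.rho_eq_one_of_forall_trace_sub_mem hT ρ habs τ fun n g => ?_
  obtain ⟨F, hF, S, u, h1, h2, h3⟩ := h n
  obtain ⟨L, hL, hLρ⟩ := ρ.isAdicContinuous n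
  have key : ∀ g : GQ, u g - LinearMap.trace T ρ.V (ρ.ρ g) ∈ IsLocalRing.maximalIdeal T ^ n := by
    intro g
    have : FiniteDimensional ℚ (F ⊔ L : IntermediateField ℚ Qb) :=
      IntermediateField.finiteDimensional_sup F L
    obtain ⟨ℓ, hℓ, hℓS, A, σ, k, j, hA, hσ, hgk, -⟩ :=
      Fermat.Agent.Frob.exists_frobenius_generating (F ⊔ L) S g
    have e1 : u g - u (σ ^ k) ∈ IsLocalRing.maximalIdeal T ^ n :=
      h1 g (σ ^ k) fun x hx => hgk x ((le_sup_left : F ≤ F ⊔ L) hx)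
    have e2 := h2 ℓ hℓ hℓS A σ hA hσ k
    have e3 : LinearMap.trace T ρ.V (ρ.ρ (σ ^ k)) - LinearMap.trace T ρ.V (ρ.ρ g) ∈
        IsLocalRing.maximalIdeal T ^ n :=
      trace_sub_mem_of_agree ρ n L hLρ (σ ^ k) g fun x hx =>
        (hgk x ((le_sup_right : L ≤ F ⊔ L) hx)).symm
    have e : u g - LinearMap.trace T ρ.V (ρ.ρ g) = (u g - u (σ ^ k)) +
        (u (σ ^ k) - LinearMap.trace T ρ.V (ρ.ρ (σ ^ k))) +
        (LinearMap.trace T ρ.V (ρ.ρ (σ ^ k)) - LinearMap.trace T ρ.V (ρ.ρ g)) := by ring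
    rw [e]
    exact Ideal.add_mem _ (Ideal.add_mem _ e1 e2) e3
  have k1 := key (g * τ)
  have k2 := key g
  have k3 := h3 g
  have e : LinearMap.trace T ρ.V (ρ.ρ (g * τ)) - LinearMap.trace T ρ.V (ρ.ρ g) =
      (u (g * τ) - u g) + (u g - LinearMap.trace T ρ.V (ρ.ρ g)) -
        (u (g * τ) - LinearMap.trace T ρ.V (ρ.ρ (g * τ))) := by ring
  rw [e]
  exact Ideal.sub_mem _ (Ideal.add_mem _ k3 k2) k1

end Core

section Hecke

open CuspForm

variable {p : ℕ} {N : ℕ} [NeZero N] {S : Finset ℕ}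
  {𝒪 : Type} [CommRing 𝒪] [IsDomain 𝒪] [IsDiscreteValuationRing 𝒪]
  [IsAdicComplete (IsLocalRing.maximalIdeal 𝒪) 𝒪]
  {θ : CuspForm.heckeAlgebra N 2 (↑S : Set ℕ) →+* IsLocalRing.ResidueField 𝒪}
  {T : Type} [CommRing T] [IsLocalRing T] [IsNoetherianRing T]
  [IsAdicComplete (IsLocalRing.maximalIdeal T) T] [Algebra 𝒪 T] [IsLocalHom (algebraMap 𝒪 T)]
  [Module.Finite 𝒪 T] [Module.Free 𝒪 T]

/-- In a Hecke–Galois datum, the trace of `ρ(σ^j)` for a Frobenius lift `σ` at `ℓ` is the image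
of the Lucas polynomial `V_j(T_ℓ, ℓ)`. -/
theorem trace_frob_pow (H : CuspForm.HeckeGaloisRepDatum N (↑S : Set ℕ) 𝒪 θ T) (ℓ : ℕ)
    (hℓ : ℓ.Prime) (hℓN : ¬ ℓ ∣ N) (hℓS : ℓ ∉ (↑S : Set ℕ)) (A : ValuationSubring Qb)
    (hA : A.LiesOverPrime ℓ) (σ : GQ) (hσ : A.IsFrobeniusAt σ ℓ) (j : ℕ) :
    LinearMap.trace T H.ρ.V (H.ρ.ρ (σ ^ j)) =
      H.π (lucas (heckeAlgebra.T hℓ hℓN hℓS) (ℓ : heckeAlgebra N 2 (↑S : Set ℕ)) j) := by
  let b : Module.Basis (Fin 2) T H.ρ.V := Module.finBasisOfFinrankEq T H.ρ.V H.ρ.finrank_eq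
  have hch := H.charpoly_frob ℓ hℓ hℓN hℓS A hA σ hσ
  rw [← LinearMap.charpoly_toMatrix (H.ρ.ρ σ) b] at hch
  obtain ⟨htr, hdet⟩ := trace_det_of_charpoly _ hch
  rw [map_pow, LinearMap.trace_eq_matrix_trace T b, ← LinearMap.toMatrix_pow, trace_pow_eq_lucas,
    htr, hdet, map_lucas, map_natCast]

/-- **Interface for S31**: Hecke-algebra-valued pseudo-character approximations.  There is an
integer `m` prime to `p` such that for every `k` there are a finite level `F` and a function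
`t : G_ℚ → 𝕋` which, up to the factor `m` and modulo `p ^ k 𝕋`, factors through `F`, takes the
value `V_j(T_ℓ, ℓ)` on `σ ^ j` for every Frobenius lift `σ` at a prime `ℓ ∉ S`, and is invariant
under right translation by inertia at the primes outside `S`. -/
def HeckePseudoChar (N : ℕ) [NeZero N] (p : ℕ) (S : Finset ℕ) : Prop :=
  ∃ m : ℕ, Nat.Coprime m p ∧ ∀ k : ℕ, ∃ (F : IntermediateField ℚ Qb) (_ : FiniteDimensional ℚ F)
    (t : GQ → heckeAlgebra N 2 (↑S : Set ℕ)),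
    (∀ g g' : GQ, (∀ x ∈ F, g x = g' x) →
      (m : heckeAlgebra N 2 (↑S : Set ℕ)) * (t g - t g') ∈
        Ideal.span {(p : heckeAlgebra N 2 (↑S : Set ℕ)) ^ k}) ∧
    (∀ (ℓ : ℕ) (hℓ : ℓ.Prime) (hℓN : ¬ ℓ ∣ N) (hℓS : ℓ ∉ (↑S : Set ℕ))
      (A : ValuationSubring Qb) (σ : GQ), A.LiesOverPrime ℓ → A.IsFrobeniusAt σ ℓ → ∀ j : ℕ,
      (m : heckeAlgebra N 2 (↑S : Set ℕ)) *
        (t (σ ^ j) - lucas (heckeAlgebra.T hℓ hℓN hℓS) (ℓ : heckeAlgebra N 2 (↑S : Set ℕ)) j) ∈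
        Ideal.span {(p : heckeAlgebra N 2 (↑S : Set ℕ)) ^ k}) ∧
    (∀ q : ℕ, q.Prime → q ∉ S → ∀ P : ValuationSubring Qb, P.LiesOverPrime q →
      ∀ τ ∈ P.inertiaSubgroupIn ℚ, ∀ g : GQ,
        (m : heckeAlgebra N 2 (↑S : Set ℕ)) * (t (g * τ) - t g) ∈
          Ideal.span {(p : heckeAlgebra N 2 (↑S : Set ℕ)) ^ k})

omit [IsNoetherianRing T] [IsAdicComplete (IsLocalRing.maximalIdeal T) T] [Module.Finite 𝒪 T]
  [Module.Free 𝒪 T] [IsDomain 𝒪] [IsDiscreteValuationRing 𝒪]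
  [IsAdicComplete (IsLocalRing.maximalIdeal 𝒪) 𝒪] in
/-- `p` lies in the maximal ideal of `T`. -/
theorem natCast_mem_maximalIdeal [IsLocalRing 𝒪] (hp𝒪 : (p : 𝒪) ∈ IsLocalRing.maximalIdeal 𝒪) :
    (p : T) ∈ IsLocalRing.maximalIdeal T := by
  have h : (p : T) = algebraMap 𝒪 T (p : 𝒪) := (map_natCast (algebraMap 𝒪 T) p).symm
  rw [h]
  exact map_nonunit (algebraMap 𝒪 T) _ hp𝒪

/-- An integer prime to `p` is a unit in a local ring in which `p` is not a unit. -/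
theorem isUnit_natCast_of_coprime {T : Type*} [CommRing T] [IsLocalRing T] {p m : ℕ}
    (hpT : (p : T) ∈ IsLocalRing.maximalIdeal T) (hm : Nat.Coprime m p) : IsUnit (m : T) := by
  obtain ⟨a, b, hab⟩ := (Nat.isCoprime_iff_coprime.mpr hm : IsCoprime (m : ℤ) (p : ℤ))
  have h1 : (a : T) * (m : T) = 1 - (b : T) * (p : T) := by
    have := congrArg (Int.cast : ℤ → T) hab
    push_cast at this
    linear_combination this
  have h2 : IsUnit ((a : T) * (m : T)) := by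
    rw [h1]
    exact IsLocalRing.isUnit_one_sub_self_of_mem_nonunits _
      (Ideal.mul_mem_left _ _ hpT)
  exact isUnit_of_mul_isUnit_right h2

/-- **S31 from a Hecke pseudo-character.** -/
theorem isUnramifiedAt_of_heckePseudoChar
    (hp𝒪 : (p : 𝒪) ∈ IsLocalRing.maximalIdeal 𝒪)
    (hpc : HeckePseudoChar N p S)
    (H : CuspForm.HeckeGaloisRepDatum N (↑S : Set ℕ) 𝒪 θ T)
    (q : ℕ) (hq : q.Prime) (hqS : q ∉ S) :
    H.ρ.IsUnramifiedAt q := by
  intro P hP τ hτ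
  obtain ⟨m, hm, hpc⟩ := hpc
  have hpT : (p : T) ∈ IsLocalRing.maximalIdeal T := natCast_mem_maximalIdeal hp𝒪
  have hmT : IsUnit (m : T) := isUnit_natCast_of_coprime hpT hm
  -- `π` maps `m * x ∈ (p ^ n)` to an element with `π x ∈ 𝔪 ^ n`
  have hπ : ∀ (n : ℕ) (x : heckeAlgebra N 2 (↑S : Set ℕ)),
      (m : heckeAlgebra N 2 (↑S : Set ℕ)) * x ∈
        Ideal.span {(p : heckeAlgebra N 2 (↑S : Set ℕ)) ^ n} →
      H.π x ∈ IsLocalRing.maximalIdeal T ^ n := by
    intro n x hx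
    obtain ⟨y, hy⟩ := Ideal.mem_span_singleton'.mp hx
    have h1 : (m : T) * H.π x = H.π y * (p : T) ^ n := by
      have := congrArg H.π hy
      rw [map_mul, map_pow, map_natCast, map_mul, map_natCast] at this
      exact this.symm
    have h2 : (m : T) * H.π x ∈ IsLocalRing.maximalIdeal T ^ n := by
      rw [h1]
      exact Ideal.mul_mem_left _ _ (Ideal.pow_mem_pow hpT n)
    obtain ⟨u, hu⟩ := hmT
    have h3 : H.π x = (↑u⁻¹ : T) * ((m : T) * H.π x) := by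
      rw [← hu, ← mul_assoc, Units.inv_mul, one_mul]
    rw [h3]
    exact Ideal.mul_mem_left _ _ h2
  refine rho_eq_one_of_pseudoChar (Fermat.Agent.Lib.GalRep.iInf_maximalIdeal_pow_eq_bot T) H.ρ
    H.residual_absIrr τ fun n => ?_
  obtain ⟨F, hF, t, h1, h2, h3⟩ := hpc n
  refine ⟨F, hF, S ∪ N.primeFactors, fun g => H.π (t g), ?_, ?_, ?_⟩
  · intro g g' hgg'
    rw [← map_sub]
    exact hπ n _ (h1 g g' hgg')
  · intro ℓ hℓ hℓS' A σ hA hσ j
    have hℓS : ℓ ∉ (↑S : Set ℕ) := fun h => hℓS' (Finset.mem_union_left _ (Finset.mem_coe.mp h))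
    have hℓN : ¬ ℓ ∣ N := fun h =>
      hℓS' (Finset.mem_union_right _ (Nat.mem_primeFactors.mpr ⟨hℓ, h, NeZero.ne N⟩))
    rw [trace_frob_pow H ℓ hℓ hℓN hℓS A hA σ hσ j, ← map_sub]
    exact hπ n _ (h2 ℓ hℓ hℓN hℓS A σ hA hσ j)
  · intro g
    rw [← map_sub]
    exact hπ n _ (h3 q hq hqS P hP τ hτ g)

end Hecke

end Fermat.Agent.S31
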