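import Mathlib
import Fermat.Agent.S31.Core
import Fermat.Agent.ESJ.Rep.Cyclo

/-!
# S31 from Hecke modules of torsion points

`HeckeTorsionModules N p S` is the geometric input of S31 in its weakest form: for every `k` a
module `M` over the Hecke algebra `𝕋 = heckeAlgebra N 2 S`, killed by `p ^ (k + e)` (think
`J₀(N)[p ^ (k + e)]`), with a `𝕋`-linear action of `G_ℚ` of finite level, unramified outside `S`,
satisfying the Eichler–Shimura relation `σ² - T_ℓ σ + ℓ = 0` for the Frobenius lifts at `ℓ ∉ S`,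
and *almost faithful*: an element of `𝕋` killing `M` lies, up to a fixed factor `m` prime to `p`,
in `p ^ k 𝕋`.

`heckePseudoChar_of_torsionModules` turns this into the Hecke-valued pseudo-characters
`HeckePseudoChar N p S` consumed by `isUnramifiedAt_of_heckePseudoChar` (S31/Core.lean):
`t g` is any element of `𝕋` acting on `M` as `g + χ_p(g) g⁻¹`.
-/

set_option autoImplicit false

namespace Fermat.Agent.S31

open CuspForm

local notation "Qb" => AlgebraicClosure ℚ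
local notation "GQ" => (AlgebraicClosure ℚ ≃ₐ[ℚ] AlgebraicClosure ℚ)

/-- **Geometric interface for S31.** -/
def HeckeTorsionModules (N : ℕ) [NeZero N] (p : ℕ) (S : Finset ℕ) : Prop :=
  ∃ (e m : ℕ), Nat.Coprime m p ∧ ∀ k : ℕ, ∃ (M : Type) (_ : AddCommGroup M)
    (_ : Module (heckeAlgebra N 2 (↑S : Set ℕ)) M)
    (gal : GQ →* Module.End (heckeAlgebra N 2 (↑S : Set ℕ)) M),
    (∀ x : M, (p ^ (k + e)) • x = 0) ∧
    (∃ L : IntermediateField ℚ Qb, FiniteDimensional ℚ L ∧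
      ∀ σ : GQ, (∀ x ∈ L, σ x = x) → gal σ = 1) ∧
    (∀ (ℓ : ℕ) (hℓ : ℓ.Prime) (hℓN : ¬ ℓ ∣ N) (hℓS : ℓ ∉ (↑S : Set ℕ))
      (A : ValuationSubring Qb) (σ : GQ), A.LiesOverPrime ℓ → A.IsFrobeniusAt σ ℓ →
      ∀ x : M, gal σ (gal σ x) -
        (heckeAlgebra.T hℓ hℓN hℓS : heckeAlgebra N 2 (↑S : Set ℕ)) • gal σ x + ℓ • x = 0) ∧
    (∀ q : ℕ, q.Prime → q ∉ S → ∀ P : ValuationSubring Qb, P.LiesOverPrime q →
      ∀ τ ∈ P.inertiaSubgroupIn ℚ, gal τ = 1) ∧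
    (∀ D : heckeAlgebra N 2 (↑S : Set ℕ), (∀ x : M, D • x = 0) →
      (m : heckeAlgebra N 2 (↑S : Set ℕ)) * D ∈
        Ideal.span {(p : heckeAlgebra N 2 (↑S : Set ℕ)) ^ k})

section Arith

/-- Congruent natural numbers act in the same way on a group killed by the modulus. -/
theorem smul_eq_of_modEq {M : Type*} [AddCommGroup M] {n a b : ℕ} (hM : ∀ x : M, n • x = 0)
    (h : a ≡ b [MOD n]) (x : M) : a • x = b • x := by
  obtain ⟨d, hd⟩ := (Nat.modEq_iff_dvd.mp h)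
  have h1 : ((b : ℤ) - (a : ℤ)) • x = 0 := by
    rw [hd, mul_comm, mul_smul, natCast_zsmul, hM, smul_zero]
  rw [sub_smul, natCast_zsmul, natCast_zsmul, sub_eq_zero] at h1
  exact h1.symm

/-- Natural numbers congruent modulo `p ^ K` in `ℤ_[p]` are congruent. -/
theorem modEq_of_natCast_sub_mem {p : ℕ} [Fact p.Prime] {K a b : ℕ}
    (h : (a : ℤ_[p]) - (b : ℤ_[p]) ∈ Ideal.span {(p : ℤ_[p]) ^ K}) : a ≡ b [MOD p ^ K] := by
  rw [Nat.modEq_iff_dvd]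
  have h' : (((b : ℤ) - (a : ℤ) : ℤ) : ℤ_[p]) ∈ Ideal.span {(p : ℤ_[p]) ^ K} := by
    have e : (((b : ℤ) - (a : ℤ) : ℤ) : ℤ_[p]) = -((a : ℤ_[p]) - (b : ℤ_[p])) := by
      push_cast
      ring
    rw [e]
    exact neg_mem h
  rw [← PadicInt.norm_le_pow_iff_mem_span_pow, PadicInt.norm_int_le_pow_iff_dvd] at h'
  exact_mod_cast h'

end Arith

section Rel

variable {𝕋 : Type*} [CommRing 𝕋] {M : Type*} [AddCommGroup M] [Module 𝕋 M]
  (gal : GQ →* Module.End 𝕋 M) (p : ℕ) [Fact p.Prime] (K : ℕ)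

/-- `D` acts on `M` as `g + χ_p(g) g⁻¹` (with `χ_p(g)` read modulo `p ^ K`). -/
def Rel (g : GQ) (D : 𝕋) : Prop :=
  ∃ c : ℕ, ((c : ℤ_[p]) - ((Fermat.Agent.ESJ.Rep.cyclo p g : ℤ_[p]ˣ) : ℤ_[p]) ∈
      Ideal.span {(p : ℤ_[p]) ^ K}) ∧
    ∀ x : M, D • x = gal g x + c • gal g⁻¹ x

variable {gal p K}

theorem Rel.unique (hM : ∀ x : M, (p ^ K) • x = 0) {g : GQ} {D D' : 𝕋} (h : Rel gal p K g D)
    (h' : Rel gal p K g D') (x : M) : (D - D') • x = 0 := by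
  obtain ⟨c, hc, hD⟩ := h
  obtain ⟨c', hc', hD'⟩ := h'
  have hcc' : c ≡ c' [MOD p ^ K] := by
    refine modEq_of_natCast_sub_mem ?_
    have := Ideal.sub_mem _ hc hc'
    rwa [sub_sub_sub_cancel_right] at this
  rw [sub_smul, hD, hD', smul_eq_of_modEq hM hcc', sub_self]

theorem Rel.congr {g g' : GQ} {D : 𝕋} (hgal : gal g = gal g')
    (hcyc : ((Fermat.Agent.ESJ.Rep.cyclo p g : ℤ_[p]ˣ) : ℤ_[p]) -
      ((Fermat.Agent.ESJ.Rep.cyclo p g' : ℤ_[p]ˣ) : ℤ_[p]) ∈ Ideal.span {(p : ℤ_[p]) ^ K})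
    (h : Rel gal p K g D) : Rel gal p K g' D := by
  obtain ⟨c, hc, hD⟩ := h
  have hinv : gal g⁻¹ = gal g'⁻¹ := by
    have h1 : gal g'⁻¹ * gal g = 1 := by rw [hgal, ← map_mul, inv_mul_cancel, map_one]
    have h2 : gal g * gal g⁻¹ = 1 := by rw [← map_mul, mul_inv_cancel, map_one]
    calc gal g⁻¹ = (gal g'⁻¹ * gal g) * gal g⁻¹ := by rw [h1, one_mul]
      _ = gal g'⁻¹ := by rw [mul_assoc, h2, mul_one]
  refine ⟨c, ?_, fun x => ?_⟩
  · have := Ideal.add_mem _ hc hcyc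
    rwa [sub_add_sub_cancel] at this
  · rw [hD, hgal, hinv]

/-- The Eichler–Shimura relation for `σ` gives `σ ^ j + ℓ ^ j σ ^ (-j) = V_j(T_ℓ, ℓ)`. -/
theorem Rel.of_quadratic {σ : GQ} {ℓ : ℕ} (a : 𝕋)
    (hcyc : ((Fermat.Agent.ESJ.Rep.cyclo p σ : ℤ_[p]ˣ) : ℤ_[p]) = (ℓ : ℤ_[p]))
    (hES : ∀ x : M, gal σ (gal σ x) - a • gal σ x + ℓ • x = 0) (j : ℕ) :
    Rel gal p K (σ ^ j) (lucas a (ℓ : 𝕋) j) := by
  refine ⟨ℓ ^ j, ?_, fun v => ?_⟩
  · rw [map_pow, Units.val_pow_eq_pow_val, hcyc, Nat.cast_pow, sub_self]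
    exact Ideal.zero_mem _
  · have hxy : gal σ * gal σ⁻¹ = 1 := by rw [← map_mul, mul_inv_cancel, map_one]
    have hyx : gal σ⁻¹ * gal σ = 1 := by rw [← map_mul, inv_mul_cancel, map_one]
    have h : gal σ + (ℓ : 𝕋) • gal σ⁻¹ = algebraMap 𝕋 (Module.End 𝕋 M) a := by
      refine LinearMap.ext fun w => ?_
      have h1 := hES (gal σ⁻¹ w)
      have h2 : gal σ (gal σ⁻¹ w) = w := by
        rw [← Module.End.mul_apply, hxy, Module.End.one_apply]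
      rw [h2] at h1
      rw [LinearMap.add_apply, LinearMap.smul_apply, Module.algebraMap_end_apply,
        Nat.cast_smul_eq_nsmul]
      rw [sub_add_eq_add_sub, sub_eq_zero] at h1
      exact h1
    have key := pow_add_pow_eq_lucas (gal σ) (gal σ⁻¹) hxy hyx a (ℓ : 𝕋) h j
    have key' := congrArg (fun f : Module.End 𝕋 M => f v) key
    simp only [LinearMap.add_apply, LinearMap.smul_apply, Module.algebraMap_end_apply] at key'
    rw [← key', map_pow, ← inv_pow, map_pow, ← Nat.cast_pow, Nat.cast_smul_eq_nsmul]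

end Rel

/-- **Hecke pseudo-characters from torsion modules.** -/
theorem heckePseudoChar_of_torsionModules {N : ℕ} [NeZero N] {p : ℕ} (hp : p.Prime)
    {S : Finset ℕ} (hpS : p ∈ S) (h : HeckeTorsionModules N p S) : HeckePseudoChar N p S := by
  have : Fact p.Prime := ⟨hp⟩
  obtain ⟨e, m, hm, h⟩ := h
  refine ⟨m, hm, fun k => ?_⟩
  obtain ⟨M, _, _, gal, hM, ⟨L, hL, hLgal⟩, hES, hunr, hINT⟩ := h k
  obtain ⟨L', hL', hLcyc⟩ := Fermat.Agent.ESJ.Rep.cyclo_sub_one p (k + e)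
  have hfin : FiniteDimensional ℚ (L ⊔ L' : IntermediateField ℚ Qb) :=
    IntermediateField.finiteDimensional_sup L L'
  -- elements agreeing on `L ⊔ L'` act in the same way on `M` and on `μ_{p^(k+e)}`
  have hagree : ∀ g g' : GQ, (∀ x ∈ (L ⊔ L' : IntermediateField ℚ Qb), g x = g' x) →
      gal g = gal g' ∧
      ((Fermat.Agent.ESJ.Rep.cyclo p g : ℤ_[p]ˣ) : ℤ_[p]) -
        ((Fermat.Agent.ESJ.Rep.cyclo p g' : ℤ_[p]ˣ) : ℤ_[p]) ∈
          Ideal.span {(p : ℤ_[p]) ^ (k + e)} := by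
    intro g g' hgg'
    have hfix : ∀ x ∈ (L ⊔ L' : IntermediateField ℚ Qb), (g'⁻¹ * g) x = x := by
      intro x hx
      rw [AlgEquiv.mul_apply, hgg' x hx]
      exact g'.symm_apply_apply x
    have hg : g = g' * (g'⁻¹ * g) := by rw [mul_inv_cancel_left]
    constructor
    · have h1 : gal (g'⁻¹ * g) = 1 :=
        hLgal _ fun x hx => hfix x ((le_sup_left : L ≤ L ⊔ L') hx)
      rw [hg, map_mul, h1, mul_one]
    · obtain ⟨c, hc⟩ := hLcyc (g'⁻¹ * g) fun x hx => hfix x ((le_sup_right : L' ≤ L ⊔ L') hx)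
      have e1 : ((Fermat.Agent.ESJ.Rep.cyclo p g : ℤ_[p]ˣ) : ℤ_[p]) -
          ((Fermat.Agent.ESJ.Rep.cyclo p g' : ℤ_[p]ˣ) : ℤ_[p]) =
          (p : ℤ_[p]) ^ (k + e) * (((Fermat.Agent.ESJ.Rep.cyclo p g' : ℤ_[p]ˣ) : ℤ_[p]) * c) := by
        conv_lhs => rw [hg, map_mul, Units.val_mul]
        linear_combination ((Fermat.Agent.ESJ.Rep.cyclo p g' : ℤ_[p]ˣ) : ℤ_[p]) * hc
      rw [e1]
      exact Ideal.mul_mem_right _ _ (Ideal.subset_span rfl)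
  -- Frobenius lifts satisfy the relation
  have hfrob : ∀ (ℓ : ℕ) (hℓ : ℓ.Prime) (hℓN : ¬ ℓ ∣ N) (hℓS : ℓ ∉ (↑S : Set ℕ))
      (A : ValuationSubring Qb) (σ : GQ), A.LiesOverPrime ℓ → A.IsFrobeniusAt σ ℓ → ∀ j : ℕ,
      Rel gal p (k + e) (σ ^ j)
        (lucas (heckeAlgebra.T hℓ hℓN hℓS) (ℓ : heckeAlgebra N 2 (↑S : Set ℕ)) j) := by
    intro ℓ hℓ hℓN hℓS A σ hA hσ j
    have hℓp : ℓ ≠ p := fun h => hℓS (h ▸ Finset.mem_coe.mpr hpS)
    exact Rel.of_quadratic _ (Fermat.Agent.ESJ.Rep.cyclo_frobenius p hℓ hℓp A hA σ hσ)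
      (hES ℓ hℓ hℓN hℓS A σ hA hσ) j
  -- every element of `G_ℚ` satisfies the relation for some Hecke operator
  have hex : ∀ g : GQ, ∃ D : heckeAlgebra N 2 (↑S : Set ℕ), Rel gal p (k + e) g D := by
    intro g
    obtain ⟨ℓ, hℓ, hℓS', A, σ, i, j, hA, hσ, hgi, -⟩ :=
      Fermat.Agent.Frob.exists_frobenius_generating (L ⊔ L') (S ∪ N.primeFactors) g
    have hℓS : ℓ ∉ (↑S : Set ℕ) := fun h => hℓS' (Finset.mem_union_left _ (Finset.mem_coe.mp h))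
    have hℓN : ¬ ℓ ∣ N := fun h =>
      hℓS' (Finset.mem_union_right _ (Nat.mem_primeFactors.mpr ⟨hℓ, h, NeZero.ne N⟩))
    obtain ⟨h1, h2⟩ := hagree (σ ^ i) g fun x hx => (hgi x hx).symm
    exact ⟨_, (hfrob ℓ hℓ hℓN hℓS A σ hA hσ i).congr h1 h2⟩
  choose t ht using hex
  have hkill : ∀ D : heckeAlgebra N 2 (↑S : Set ℕ), (∀ x : M, D • x = 0) →
      (m : heckeAlgebra N 2 (↑S : Set ℕ)) * D ∈
        Ideal.span {(p : heckeAlgebra N 2 (↑S : Set ℕ)) ^ k} := hINT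
  refine ⟨L ⊔ L', hfin, t, ?_, ?_, ?_⟩
  · intro g g' hgg'
    obtain ⟨h1, h2⟩ := hagree g' g fun x hx => (hgg' x hx).symm
    exact hkill _ ((ht g).unique hM ((ht g').congr h1 h2))
  · intro ℓ hℓ hℓN hℓS A σ hA hσ j
    exact hkill _ ((ht (σ ^ j)).unique hM (hfrob ℓ hℓ hℓN hℓS A σ hA hσ j))
  · intro q hq hqS P hP τ hτ g
    have hqp : q ≠ p := fun h => hqS (h ▸ hpS)
    have h1 : gal (g * τ) = gal g := by rw [map_mul, hunr q hq hqS P hP τ hτ, mul_one]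
    have h2 : ((Fermat.Agent.ESJ.Rep.cyclo p (g * τ) : ℤ_[p]ˣ) : ℤ_[p]) -
        ((Fermat.Agent.ESJ.Rep.cyclo p g : ℤ_[p]ˣ) : ℤ_[p]) ∈
          Ideal.span {(p : ℤ_[p]) ^ (k + e)} := by
      rw [map_mul, Fermat.Agent.ESJ.Rep.cyclo_inertia p hq hqp P hP τ hτ, mul_one, sub_self]
      exact Ideal.zero_mem _
    exact hkill _ ((ht (g * τ)).unique hM ((ht g).congr h1.symm (by
      have := neg_mem h2
      rwa [neg_sub] at this)))

/-- **S31 from the geometric interface** `HeckeTorsionModules`. -/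
theorem isUnramifiedAt_of_torsionModules {p : ℕ} {N : ℕ} [NeZero N] {S : Finset ℕ}
    {𝒪 : Type} [CommRing 𝒪] [IsDomain 𝒪] [IsDiscreteValuationRing 𝒪]
    [IsAdicComplete (IsLocalRing.maximalIdeal 𝒪) 𝒪]
    {θ : CuspForm.heckeAlgebra N 2 (↑S : Set ℕ) →+* IsLocalRing.ResidueField 𝒪}
    {T : Type} [CommRing T] [IsLocalRing T] [IsNoetherianRing T]
    [IsAdicComplete (IsLocalRing.maximalIdeal T) T] [Algebra 𝒪 T] [IsLocalHom (algebraMap 𝒪 T)]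
    [Module.Finite 𝒪 T] [Module.Free 𝒪 T]
    (hmod : HeckeTorsionModules N p S) (hp : p.Prime)
    (hp𝒪 : (p : 𝒪) ∈ IsLocalRing.maximalIdeal 𝒪) (hpS : p ∈ S)
    (H : CuspForm.HeckeGaloisRepDatum N (↑S : Set ℕ) 𝒪 θ T)
    (q : ℕ) (hq : q.Prime) (hqS : q ∉ S) :
    H.ρ.IsUnramifiedAt q :=
  isUnramifiedAt_of_heckePseudoChar hp𝒪 (heckePseudoChar_of_torsionModules hp hpS hmod) H q hq hqS

end Fermat.Agent.S31
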