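import Mathlib
import Fermat.Agent.S31.Torsion

/-!
# `HeckeTorsionModules` from commuting Hecke and Galois actions on a `ℤ_p`-module

`heckeTorsionModules_of_actions`: a `ℤ_[p]`-module `Ta` ("the Tate module") with a ring
homomorphism `ψ : 𝕋 → End Ta`, a commuting `p`-adically continuous Galois action, unramified
outside `S`, satisfying the Eichler–Shimura relations, and such that `ψ g (Ta) ⊆ p ^ (k + e) Ta`
implies `m * g ∈ p ^ k 𝕋`, gives `HeckeTorsionModules N p S`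
(with `M = (ℤ_[p] / p ^ (k + e)) ⊗ Ta`).
-/

set_option autoImplicit false

namespace Fermat.Agent.S31

open CuspForm
open scoped TensorProduct

local notation "Qb" => AlgebraicClosure ℚ
local notation "GQ" => (AlgebraicClosure ℚ ≃ₐ[ℚ] AlgebraicClosure ℚ)

theorem heckeTorsionModules_of_actions {N : ℕ} [NeZero N] {p : ℕ} [Fact p.Prime] {S : Finset ℕ}
    (e m : ℕ) (hm : Nat.Coprime m p)
    (Ta : Type) [AddCommGroup Ta] [Module ℤ_[p] Ta]
    (ψ : heckeAlgebra N 2 (↑S : Set ℕ) →+* Module.End ℤ_[p] Ta)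
    (gal : GQ →* Module.End ℤ_[p] Ta)
    (hcomm : ∀ (g : heckeAlgebra N 2 (↑S : Set ℕ)) (σ : GQ), Commute (ψ g) (gal σ))
    (hcont : ∀ n : ℕ, ∃ L : IntermediateField ℚ Qb, FiniteDimensional ℚ L ∧
      ∀ σ : GQ, (∀ x ∈ L, σ x = x) → ∀ v : Ta, ∃ w : Ta, gal σ v - v = (p : ℤ_[p]) ^ n • w)
    (hES : ∀ (ℓ : ℕ) (hℓ : ℓ.Prime) (hℓN : ¬ ℓ ∣ N) (hℓS : ℓ ∉ (↑S : Set ℕ))
      (A : ValuationSubring Qb) (σ : GQ), A.LiesOverPrime ℓ → A.IsFrobeniusAt σ ℓ →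
      gal σ * gal σ - ψ (heckeAlgebra.T hℓ hℓN hℓS) * gal σ + (ℓ : Module.End ℤ_[p] Ta) = 0)
    (hunr : ∀ q : ℕ, q.Prime → q ∉ S → ∀ P : ValuationSubring Qb, P.LiesOverPrime q →
      ∀ τ ∈ P.inertiaSubgroupIn ℚ, gal τ = 1)
    (hfaith : ∀ (k : ℕ) (g : heckeAlgebra N 2 (↑S : Set ℕ)),
      (∀ v : Ta, ∃ w : Ta, ψ g v = (p : ℤ_[p]) ^ (k + e) • w) →
      (m : heckeAlgebra N 2 (↑S : Set ℕ)) * g ∈
        Ideal.span {(p : heckeAlgebra N 2 (↑S : Set ℕ)) ^ k}) :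
    HeckeTorsionModules N p S := by
  refine ⟨e, m, hm, fun k => ?_⟩
  let I : Ideal ℤ_[p] := Ideal.span {(p : ℤ_[p]) ^ (k + e)}
  let bc : Module.End ℤ_[p] Ta →+* Module.End (ℤ_[p] ⧸ I) ((ℤ_[p] ⧸ I) ⊗[ℤ_[p]] Ta) :=
    (Module.End.baseChangeHom ℤ_[p] (ℤ_[p] ⧸ I) Ta).toRingHom
  have hbc : ∀ (f : Module.End ℤ_[p] Ta) (a : ℤ_[p] ⧸ I) (v : Ta),
      bc f (a ⊗ₜ[ℤ_[p]] v) = a ⊗ₜ[ℤ_[p]] f v := fun f a v => rfl
  let act : heckeAlgebra N 2 (↑S : Set ℕ) →+*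
      Module.End (ℤ_[p] ⧸ I) ((ℤ_[p] ⧸ I) ⊗[ℤ_[p]] Ta) := bc.comp ψ
  let inst : Module (heckeAlgebra N 2 (↑S : Set ℕ)) ((ℤ_[p] ⧸ I) ⊗[ℤ_[p]] Ta) :=
    Module.compHom _ act
  have hsmul : ∀ (g : heckeAlgebra N 2 (↑S : Set ℕ)) (x : (ℤ_[p] ⧸ I) ⊗[ℤ_[p]] Ta),
      g • x = bc (ψ g) x := fun _ _ => rfl
  have hcommM : ∀ (g : heckeAlgebra N 2 (↑S : Set ℕ)) (σ : GQ)
      (x : (ℤ_[p] ⧸ I) ⊗[ℤ_[p]] Ta), bc (gal σ) (bc (ψ g) x) = bc (ψ g) (bc (gal σ) x) := by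
    intro g σ x
    have h := (hcomm g σ).map bc
    exact (congrArg (fun f : Module.End (ℤ_[p] ⧸ I) ((ℤ_[p] ⧸ I) ⊗[ℤ_[p]] Ta) => f x) h.eq).symm
  let galM : GQ →* Module.End (heckeAlgebra N 2 (↑S : Set ℕ)) ((ℤ_[p] ⧸ I) ⊗[ℤ_[p]] Ta) :=
    { toFun := fun σ =>
        { toFun := fun x => bc (gal σ) x
          map_add' := fun x y => map_add _ x y
          map_smul' := fun g x => by
            rw [RingHom.id_apply, hsmul, hsmul]
            exact hcommM g σ x }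
      map_one' := by
        refine LinearMap.ext fun x => ?_
        show bc (gal 1) x = x
        rw [map_one, map_one, Module.End.one_apply]
      map_mul' := fun σ τ => by
        refine LinearMap.ext fun x => ?_
        show bc (gal (σ * τ)) x = bc (gal σ) (bc (gal τ) x)
        rw [map_mul, map_mul, Module.End.mul_apply] }
  have hgalM : ∀ (σ : GQ) (x : (ℤ_[p] ⧸ I) ⊗[ℤ_[p]] Ta), galM σ x = bc (gal σ) x :=
    fun _ _ => rfl
  have hpI : ((p : ℤ_[p] ⧸ I)) ^ (k + e) = 0 := by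
    have h1 : Ideal.Quotient.mk I ((p : ℤ_[p]) ^ (k + e)) = 0 :=
      Ideal.Quotient.eq_zero_iff_mem.mpr (Ideal.subset_span rfl)
    rw [map_pow, map_natCast] at h1
    exact h1
  refine ⟨(ℤ_[p] ⧸ I) ⊗[ℤ_[p]] Ta, inferInstance, inst, galM, ?_, ?_, ?_, ?_, ?_⟩
  · intro x
    rw [← Nat.cast_smul_eq_nsmul (ℤ_[p] ⧸ I), Nat.cast_pow, hpI, zero_smul]
  · obtain ⟨L, hL, hLgal⟩ := hcont (k + e)
    refine ⟨L, hL, fun σ hσ => LinearMap.ext fun x => ?_⟩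
    rw [hgalM, Module.End.one_apply]
    induction x using TensorProduct.induction_on with
    | zero => rw [map_zero]
    | tmul a v =>
      obtain ⟨w, hw⟩ := hLgal σ hσ v
      have h1 : gal σ v = v + (p : ℤ_[p]) ^ (k + e) • w := by rw [← hw]; abel
      rw [hbc, h1, TensorProduct.tmul_add, TensorProduct.tmul_smul, TensorProduct.smul_tmul',
        Algebra.smul_def, Ideal.Quotient.algebraMap_eq, map_pow, map_natCast, hpI, zero_mul,
        TensorProduct.zero_tmul, add_zero]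
    | add x y hx hy => rw [map_add, hx, hy]
  · intro ℓ hℓ hℓN hℓS A σ hA hσ x
    have h := congrArg bc (hES ℓ hℓ hℓN hℓS A σ hA hσ)
    rw [map_add, map_sub, map_mul, map_mul, map_natCast, map_zero] at h
    have h' := congrArg (fun f : Module.End (ℤ_[p] ⧸ I) ((ℤ_[p] ⧸ I) ⊗[ℤ_[p]] Ta) => f x) h
    simp only [LinearMap.add_apply, LinearMap.sub_apply, Module.End.mul_apply,
      LinearMap.zero_apply, Module.End.natCast_apply] at h'
    rw [hgalM, hgalM, hsmul]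
    exact h'
  · intro q hq hqS P hP τ hτ
    refine LinearMap.ext fun x => ?_
    rw [hgalM, hunr q hq hqS P hP τ hτ, map_one]
    rfl
  · intro g hg
    refine hfaith k g fun v => ?_
    have h1 : bc (ψ g) ((1 : ℤ_[p] ⧸ I) ⊗ₜ[ℤ_[p]] v) = 0 := by
      rw [← hsmul]
      exact hg _
    rw [hbc] at h1
    have h2 := congrArg (TensorProduct.quotTensorEquivQuotSMul Ta I) h1
    rw [TensorProduct.quotTensorEquivQuotSMul_mk_one_tmul, map_zero,
      Submodule.Quotient.mk_eq_zero] at h2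
    rw [Submodule.ideal_span_singleton_smul, Submodule.mem_smul_pointwise_iff_exists] at h2
    obtain ⟨w, -, hw⟩ := h2
    exact ⟨w, hw.symm⟩

end Fermat.Agent.S31
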