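import Mathlib
import Fermat.Prelude.Def_CuspForm_HeckeAlgebra

/-!
# Two algebraic tools for S31

* `hecke_induction`: induction principle for the Hecke algebra `heckeAlgebra N k S`.
* `exists_sat_index`: a commutative ring `𝕋` acting faithfully on a finite free `ℤ`-module `H`
  has bounded index in its saturation: there is `m₀ > 0` such that whenever `D ∈ 𝕋` maps `H`
  into `n H`, one has `m₀ D ∈ n 𝕋`.
-/

set_option autoImplicit false

namespace Fermat.Agent.S31

open CuspForm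

/-- Induction principle for the Hecke algebra. -/
theorem hecke_induction {N : ℕ} [NeZero N] {k : ℤ} {S : Set ℕ} {P : heckeAlgebra N k S → Prop}
    (hT : ∀ (ℓ : ℕ) (hℓ : ℓ.Prime) (hℓN : ¬ ℓ ∣ N) (hℓS : ℓ ∉ S), P (heckeAlgebra.T hℓ hℓN hℓS))
    (hU : ∀ (q : ℕ) (hq : q.Prime) (hqN : q ∣ N) (hqS : q ∉ S), P (heckeAlgebra.U hq hqN hqS))
    (hint : ∀ n : ℤ, P (n : heckeAlgebra N k S))
    (hadd : ∀ x y, P x → P y → P (x + y)) (hmul : ∀ x y, P x → P y → P (x * y))
    (x : heckeAlgebra N k S) : P x := by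
  obtain ⟨x, hx⟩ := x
  induction hx using Algebra.adjoin_induction with
  | mem x hx =>
    rcases hx with ⟨ℓ, hℓ, hℓN, hℓS, rfl⟩ | ⟨q, hqN, hq, hqS, rfl⟩
    · exact hT ℓ hℓ hℓN hℓS
    · exact hU q hq hqN hqS
  | algebraMap r =>
    have h := hint r
    have e : ((r : ℤ) : heckeAlgebra N k S) = ⟨algebraMap ℤ _ r, Subalgebra.algebraMap_mem _ r⟩ := by
      apply Subtype.ext
      simp
    rwa [e] at h
  | add x y hx hy ihx ihy => exact hadd ⟨x, hx⟩ ⟨y, hy⟩ ihx ihy
  | mul x y hx hy ihx ihy => exact hmul ⟨x, hx⟩ ⟨y, hy⟩ ihx ihy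

/-- **Bounded index in the saturation.** -/
theorem exists_sat_index {𝕋 H : Type*} [CommRing 𝕋] [AddCommGroup H] [Module.Free ℤ H]
    [Module.Finite ℤ H] (φ : 𝕋 →+* Module.End ℤ H) (hφ : Function.Injective φ) :
    ∃ m₀ : ℕ, 0 < m₀ ∧ ∀ (D : 𝕋) (n : ℕ), (∀ h : H, ∃ h' : H, φ D h = n • h') →
      ∃ D' : 𝕋, (m₀ : 𝕋) * D = (n : 𝕋) * D' := by
  classical
  -- the saturation of the image of `φ`
  let Sat : Submodule ℤ (Module.End ℤ H) :=
    { carrier := {f | ∃ n : ℕ, 0 < n ∧ ∃ D : 𝕋, n • f = φ D}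
      zero_mem' := ⟨1, one_pos, 0, by simp⟩
      add_mem' := by
        rintro f f' ⟨n, hn, D, hD⟩ ⟨n', hn', D', hD'⟩
        refine ⟨n * n', Nat.mul_pos hn hn', (n' : 𝕋) * D + (n : 𝕋) * D', ?_⟩
        rw [map_add, map_mul, map_mul, map_natCast, map_natCast, ← hD, ← hD', ← nsmul_eq_mul,
          ← nsmul_eq_mul, smul_smul, smul_smul, smul_add, mul_comm n' n]
      smul_mem' := by
        rintro c f ⟨n, hn, D, hD⟩
        refine ⟨n, hn, (c : 𝕋) * D, ?_⟩
        rw [map_mul, map_intCast, ← hD, ← zsmul_eq_mul, smul_comm] }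
  have hSat : ∀ f : Module.End ℤ H, f ∈ Sat ↔ ∃ n : ℕ, 0 < n ∧ ∃ D : 𝕋, n • f = φ D :=
    fun f => Iff.rfl
  have hfg : Sat.FG := IsNoetherian.noetherian Sat
  obtain ⟨s, hs⟩ := hfg
  have hsat : ∀ f ∈ s, ∃ n : ℕ, 0 < n ∧ ∃ D : 𝕋, n • f = φ D := fun f hf =>
    (hSat f).mp (hs ▸ Submodule.subset_span hf)
  choose! ν hν using hsat
  refine ⟨∏ f ∈ s, ν f, Finset.prod_pos fun f hf => (hν f hf).1, ?_⟩
  -- `m₀` maps the saturation into the image
  have key : ∀ f ∈ Sat, ∃ D : 𝕋, (∏ f ∈ s, ν f) • f = φ D := by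
    intro f hf
    rw [← hs] at hf
    induction hf using Submodule.span_induction with
    | mem f hf =>
      obtain ⟨c, hc⟩ := Finset.dvd_prod_of_mem ν hf
      obtain ⟨D, hD⟩ := (hν f hf).2
      refine ⟨(c : 𝕋) * D, ?_⟩
      rw [hc, mul_comm, mul_smul, hD, map_mul, map_natCast, nsmul_eq_mul]
    | zero => exact ⟨0, by simp⟩
    | add f f' _ _ ihf ihf' =>
      obtain ⟨D, hD⟩ := ihf
      obtain ⟨D', hD'⟩ := ihf'
      exact ⟨D + D', by rw [smul_add, hD, hD', map_add]⟩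
    | smul c f _ ihf =>
      obtain ⟨D, hD⟩ := ihf
      exact ⟨(c : 𝕋) * D, by rw [smul_comm, hD, map_mul, map_intCast, zsmul_eq_mul]⟩
  intro D n hD
  rcases Nat.eq_zero_or_pos n with rfl | hn
  · refine ⟨0, ?_⟩
    have h0 : φ D = 0 := by
      refine LinearMap.ext fun h => ?_
      obtain ⟨h', hh'⟩ := hD h
      rw [hh', zero_smul, LinearMap.zero_apply]
    have : D = 0 := hφ (by rw [h0, map_zero])
    rw [this, mul_zero, mul_zero]
  · choose g hg using hD
    have hinj : Function.Injective fun x : H => n • x := by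
      intro x y hxy
      have h1 : (n : ℤ) • x = (n : ℤ) • y := by
        rw [natCast_zsmul, natCast_zsmul]
        exact hxy
      exact smul_right_injective H (Int.natCast_ne_zero.mpr hn.ne') h1
    let f : Module.End ℤ H :=
      { toFun := g
        map_add' := fun x y => hinj (by
          show n • g (x + y) = n • (g x + g y)
          rw [smul_add, ← hg, ← hg, ← hg, map_add])
        map_smul' := fun c x => hinj (by
          show n • g (c • x) = n • (c • g x)
          rw [smul_comm, ← hg, ← hg, map_smul]) }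
    have hf : n • f = φ D := by
      refine LinearMap.ext fun h => ?_
      rw [LinearMap.smul_apply]
      exact (hg h).symm
    obtain ⟨D', hD'⟩ := key f ((hSat f).mpr ⟨n, hn, D, hf⟩)
    refine ⟨D', hφ ?_⟩
    rw [map_mul, map_mul, map_natCast, map_natCast, ← hD', ← hf, ← nsmul_eq_mul, ← nsmul_eq_mul,
      smul_comm]

end Fermat.Agent.S31
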