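import Mathlib
import Fermat.Agent.ESJ.Rep.Defs
import Fermat.Agent.S31.Quot
import Fermat.Agent.S31.Sat

/-!
# S31 from a Tate datum with comparison data

`heckeTorsionModules_of_cmpData`: a `TateDatum p N` (REP layer, `ESJ/Rep/Defs.lean`) together
with `CmpData` (an integral lattice `H` with `Ta ≃ ℤ_p ⊗ H` and `ℂ ⊗ H ≃ S₂ × S₂`, both
Hecke-equivariant) gives the geometric interface `HeckeTorsionModules N p S` of S31, for every
finite set `S` of primes containing `p` and the primes dividing `N`.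

Steps: the Hecke algebra `𝕋 = heckeAlgebra N 2 S` acts faithfully on `H` (`phiHom`, defined by
"`f` on `H` and `g` on `S₂` are compatible under `cmpS2`"); hence on `Ta` (`psiHom`); the image
of `𝕋` in `End H` has bounded index in its saturation (`exists_sat_index`), which gives the
almost-faithfulness of the action on `Ta / p ^ (k + e)`.
-/

set_option autoImplicit false

namespace Fermat.Agent.S31

open CuspForm Fermat.Agent.ESJ.Rep
open scoped TensorProduct

local notation "Qb" => AlgebraicClosure ℚ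
local notation "GQ" => (AlgebraicClosure ℚ ≃ₐ[ℚ] AlgebraicClosure ℚ)

/-- `h ↦ 1 ⊗ h` is injective for a free `ℤ`-module and a ring of characteristic zero. -/
theorem one_tmul_injective (A : Type*) [CommRing A] [CharZero A] (H : Type*) [AddCommGroup H]
    [Module.Free ℤ H] : Function.Injective fun h : H => (1 : A) ⊗ₜ[ℤ] h := by
  intro h h' hh
  let b := Module.Free.chooseBasis ℤ H
  apply b.repr.injective
  ext i
  have h1 := congrArg (fun x => (Algebra.TensorProduct.basis A b).repr x i) hh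
  simp only [Algebra.TensorProduct.basis_repr_tmul, one_smul] at h1
  exact (algebraMap ℤ A).injective_int h1

/-- If `1 ⊗ y` is divisible by `p ^ n` in `ℤ_p ⊗ H`, then `y` is divisible by `p ^ n` in `H`. -/
theorem exists_eq_smul_of_one_tmul {p : ℕ} [Fact p.Prime] {H : Type*} [AddCommGroup H]
    [Module.Free ℤ H] [Module.Finite ℤ H] (n : ℕ) (y : H) (z : ℤ_[p] ⊗[ℤ] H)
    (h : (1 : ℤ_[p]) ⊗ₜ[ℤ] y = (p : ℤ_[p]) ^ n • z) : ∃ h' : H, y = (p ^ n) • h' := by
  classical
  let b := Module.Free.chooseBasis ℤ H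
  have hdvd : ∀ i, ((p : ℤ) ^ n) ∣ b.repr y i := by
    intro i
    have h1 := congrArg (fun x => (Algebra.TensorProduct.basis ℤ_[p] b).repr x i) h
    simp only [Algebra.TensorProduct.basis_repr_tmul, one_smul, map_smul, Finsupp.smul_apply,
      smul_eq_mul, Finsupp.mapRange_apply, eq_intCast] at h1
    have h2 : ((b.repr y i : ℤ) : ℤ_[p]) ∈ Ideal.span {(p : ℤ_[p]) ^ n} := by
      rw [Ideal.mem_span_singleton']
      refine ⟨(Algebra.TensorProduct.basis ℤ_[p] b).repr z i, ?_⟩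
      rw [mul_comm]
      exact h1.symm
    rw [← PadicInt.norm_le_pow_iff_mem_span_pow, PadicInt.norm_int_le_pow_iff_dvd] at h2
    exact_mod_cast h2
  choose c hc using hdvd
  refine ⟨∑ i, c i • b i, ?_⟩
  rw [Finset.smul_sum]
  conv_lhs => rw [← b.sum_repr y]
  refine Finset.sum_congr rfl fun i _ => ?_
  rw [hc i, mul_smul, ← natCast_zsmul (c i • b i) (p ^ n), Nat.cast_pow]

section Cmp

variable {p N : ℕ} [Fact p.Prime] [NeZero N] {Ta : Type} [AddCommGroup Ta] [Module ℤ_[p] Ta]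
  {hecke : Nat.Primes → Module.End ℤ_[p] Ta} (C : CmpData p N Ta hecke)

/-- `f ∈ End H` and `g ∈ End S₂` are compatible under the comparison `ℂ ⊗ H ≃ S₂ × S₂`. -/
def Compat (f : Module.End ℤ C.H)
    (g : Module.End ℂ (CuspForm (CongruenceSubgroup.Gamma0 N) 2)) : Prop :=
  ∀ x : ℂ ⊗[ℤ] C.H, C.cmpS2 (f.baseChange ℂ x) = (g (C.cmpS2 x).1, g (C.cmpS2 x).2)

variable {C}

theorem Compat.unique {f f' : Module.End ℤ C.H}
    {g : Module.End ℂ (CuspForm (CongruenceSubgroup.Gamma0 N) 2)} (h : Compat C f g)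
    (h' : Compat C f' g) : f = f' := by
  have e : ∀ x, f.baseChange ℂ x = f'.baseChange ℂ x := fun x =>
    C.cmpS2.injective (by rw [h x, h' x])
  refine LinearMap.ext fun y => one_tmul_injective ℂ C.H ?_
  have h1 := e ((1 : ℂ) ⊗ₜ[ℤ] y)
  rw [LinearMap.baseChange_tmul, LinearMap.baseChange_tmul] at h1
  exact h1

theorem Compat.eq_zero {g : Module.End ℂ (CuspForm (CongruenceSubgroup.Gamma0 N) 2)}
    (h : Compat C 0 g) : g = 0 := by
  refine LinearMap.ext fun y => ?_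
  have h1 := h (C.cmpS2.symm (y, 0))
  rw [LinearMap.baseChange_zero, LinearMap.zero_apply, map_zero, LinearEquiv.apply_symm_apply]
    at h1
  exact (congrArg Prod.fst h1).symm

variable (C)

theorem compat_hecke (ℓ : Nat.Primes) : Compat C (C.heckeH ℓ) (heckeOp N ℓ) :=
  C.cmpS2_hecke ℓ

theorem compat_zero : Compat C 0 0 := by
  intro x
  rw [LinearMap.baseChange_zero, LinearMap.zero_apply, map_zero]
  rfl

theorem compat_one : Compat C 1 1 := by
  intro x
  rw [LinearMap.baseChange_one, Module.End.one_apply]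
  rfl

theorem compat_intCast (n : ℤ) : Compat C (n : Module.End ℤ C.H)
    (n : Module.End ℂ (CuspForm (CongruenceSubgroup.Gamma0 N) 2)) := by
  intro x
  have h1 : (n : Module.End ℤ C.H).baseChange ℂ = (n : Module.End ℂ (ℂ ⊗[ℤ] C.H)) :=
    map_intCast (Module.End.baseChangeHom ℤ ℂ C.H) n
  rw [h1, Module.End.intCast_apply, map_zsmul, Module.End.intCast_apply,
    Module.End.intCast_apply]
  rfl

variable {C}

theorem Compat.add {f f' : Module.End ℤ C.H}
    {g g' : Module.End ℂ (CuspForm (CongruenceSubgroup.Gamma0 N) 2)} (h : Compat C f g)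
    (h' : Compat C f' g') : Compat C (f + f') (g + g') := by
  intro x
  rw [LinearMap.baseChange_add, LinearMap.add_apply, map_add, h x, h' x]
  rfl

theorem Compat.mul {f f' : Module.End ℤ C.H}
    {g g' : Module.End ℂ (CuspForm (CongruenceSubgroup.Gamma0 N) 2)} (h : Compat C f g)
    (h' : Compat C f' g') : Compat C (f * f') (g * g') := by
  intro x
  rw [LinearMap.baseChange_mul, Module.End.mul_apply, h, h' x]
  rfl

variable (C)

theorem heckeOp_of_not_dvd {ℓ : ℕ} (hℓ : ℓ.Prime) (hℓN : ¬ ℓ ∣ N) :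
    heckeOp N ⟨ℓ, hℓ⟩ = heckeTLin 2 hℓ hℓN := by
  unfold heckeOp
  rw [heckeFormsGen_of_not_dvd (show ¬ ((⟨ℓ, hℓ⟩ : Nat.Primes) : ℕ) ∣ N from hℓN)]
  rfl

theorem heckeOp_of_dvd {q : ℕ} (hq : q.Prime) (hqN : q ∣ N) :
    heckeOp N ⟨q, hq⟩ = heckeULin 2 hqN := by
  unfold heckeOp
  rw [heckeFormsGen_of_dvd (show ((⟨q, hq⟩ : Nat.Primes) : ℕ) ∣ N from hqN)]
  rfl

theorem exists_compat (S : Set ℕ) (g : heckeAlgebra N 2 S) :
    ∃ f : Module.End ℤ C.H,
      Compat C f (g : Module.End ℂ (CuspForm (CongruenceSubgroup.Gamma0 N) 2)) := by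
  induction g using hecke_induction with
  | hT ℓ hℓ hℓN hℓS =>
    refine ⟨C.heckeH ⟨ℓ, hℓ⟩, ?_⟩
    have h := compat_hecke C ⟨ℓ, hℓ⟩
    rw [heckeOp_of_not_dvd hℓ hℓN] at h
    exact h
  | hU q hq hqN hqS =>
    refine ⟨C.heckeH ⟨q, hq⟩, ?_⟩
    have h := compat_hecke C ⟨q, hq⟩
    rw [heckeOp_of_dvd hq hqN] at h
    exact h
  | hint n =>
    refine ⟨(n : Module.End ℤ C.H), ?_⟩
    have h := compat_intCast C n
    have e : (((n : ℤ) : heckeAlgebra N 2 S) :
        Module.End ℂ (CuspForm (CongruenceSubgroup.Gamma0 N) 2)) = (n : Module.End ℂ _) := by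
      simp
    rw [e]
    exact h
  | hadd x y hx hy =>
    obtain ⟨f, hf⟩ := hx
    obtain ⟨f', hf'⟩ := hy
    exact ⟨f + f', hf.add hf'⟩
  | hmul x y hx hy =>
    obtain ⟨f, hf⟩ := hx
    obtain ⟨f', hf'⟩ := hy
    exact ⟨f * f', hf.mul hf'⟩

/-- The action of the Hecke algebra on the lattice `H`. -/
noncomputable def phi (S : Set ℕ) (g : heckeAlgebra N 2 S) : Module.End ℤ C.H :=
  Classical.choose (exists_compat C S g)

theorem phi_spec (S : Set ℕ) (g : heckeAlgebra N 2 S) :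
    Compat C (phi C S g) (g : Module.End ℂ (CuspForm (CongruenceSubgroup.Gamma0 N) 2)) :=
  Classical.choose_spec (exists_compat C S g)

/-- The action of the Hecke algebra on the lattice `H`, as a ring homomorphism. -/
noncomputable def phiHom (S : Set ℕ) : heckeAlgebra N 2 S →+* Module.End ℤ C.H where
  toFun := phi C S
  map_one' := (phi_spec C S 1).unique (compat_one C)
  map_mul' x y := (phi_spec C S (x * y)).unique ((phi_spec C S x).mul (phi_spec C S y))
  map_zero' := (phi_spec C S 0).unique (compat_zero C)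
  map_add' x y := (phi_spec C S (x + y)).unique ((phi_spec C S x).add (phi_spec C S y))

theorem phiHom_spec (S : Set ℕ) (g : heckeAlgebra N 2 S) :
    Compat C (phiHom C S g) (g : Module.End ℂ (CuspForm (CongruenceSubgroup.Gamma0 N) 2)) :=
  phi_spec C S g

theorem phiHom_injective (S : Set ℕ) : Function.Injective (phiHom C S) := by
  refine (injective_iff_map_eq_zero _).mpr fun g hg => ?_
  have h := phiHom_spec C S g
  rw [hg] at h
  exact Subtype.ext h.eq_zero

theorem phiHom_T (S : Set ℕ) {ℓ : ℕ} (hℓ : ℓ.Prime) (hℓN : ¬ ℓ ∣ N) (hℓS : ℓ ∉ S) :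
    phiHom C S (heckeAlgebra.T hℓ hℓN hℓS) = C.heckeH ⟨ℓ, hℓ⟩ := by
  refine (phiHom_spec C S _).unique ?_
  have h := compat_hecke C ⟨ℓ, hℓ⟩
  rw [heckeOp_of_not_dvd hℓ hℓN] at h
  exact h

theorem phiHom_U (S : Set ℕ) {q : ℕ} (hq : q.Prime) (hqN : q ∣ N) (hqS : q ∉ S) :
    phiHom C S (heckeAlgebra.U hq hqN hqS) = C.heckeH ⟨q, hq⟩ := by
  refine (phiHom_spec C S _).unique ?_
  have h := compat_hecke C ⟨q, hq⟩
  rw [heckeOp_of_dvd hq hqN] at h
  exact h

/-- The action of the Hecke algebra on the Tate module. -/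
noncomputable def psiHom (S : Set ℕ) : heckeAlgebra N 2 S →+* Module.End ℤ_[p] Ta :=
  (C.cmpTa.symm.conjRingEquiv :
    Module.End ℤ_[p] (ℤ_[p] ⊗[ℤ] C.H) →+* Module.End ℤ_[p] Ta).comp
    ((Module.End.baseChangeHom ℤ ℤ_[p] C.H).toRingHom.comp (phiHom C S))

theorem psiHom_apply (S : Set ℕ) (g : heckeAlgebra N 2 S) (v : Ta) :
    psiHom C S g v = C.cmpTa.symm ((phiHom C S g).baseChange ℤ_[p] (C.cmpTa v)) := rfl

theorem psiHom_T (S : Set ℕ) {ℓ : ℕ} (hℓ : ℓ.Prime) (hℓN : ¬ ℓ ∣ N) (hℓS : ℓ ∉ S) :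
    psiHom C S (heckeAlgebra.T hℓ hℓN hℓS) = hecke ⟨ℓ, hℓ⟩ := by
  refine LinearMap.ext fun v => ?_
  rw [psiHom_apply, phiHom_T, ← C.cmpTa_hecke, LinearEquiv.symm_apply_apply]

theorem psiHom_U (S : Set ℕ) {q : ℕ} (hq : q.Prime) (hqN : q ∣ N) (hqS : q ∉ S) :
    psiHom C S (heckeAlgebra.U hq hqN hqS) = hecke ⟨q, hq⟩ := by
  refine LinearMap.ext fun v => ?_
  rw [psiHom_apply, phiHom_U, ← C.cmpTa_hecke, LinearEquiv.symm_apply_apply]

end Cmp

/-- **`HeckeTorsionModules` from a Tate datum with comparison data.** -/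
theorem heckeTorsionModules_of_cmpData {p N : ℕ} [Fact p.Prime] [NeZero N] (D : TateDatum p N)
    (C : CmpData p N D.Ta D.hecke) (S : Finset ℕ) (hpS : p ∈ S)
    (hNS : ∀ q : ℕ, q.Prime → q ∣ N → q ∈ S) : HeckeTorsionModules N p S := by
  have hp : p.Prime := Fact.out
  obtain ⟨m₀, hm₀, hsat⟩ := exists_sat_index (phiHom C (↑S : Set ℕ)) (phiHom_injective C _)
  obtain ⟨e, m, hpm, hm₀eq⟩ := Nat.exists_eq_pow_mul_and_not_dvd hm₀.ne' p hp.ne_one
  have hcop : Nat.Coprime m p := ((Nat.Prime.coprime_iff_not_dvd hp).mpr hpm).symm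
  refine heckeTorsionModules_of_actions e m hcop D.Ta (psiHom C (↑S : Set ℕ)) D.gal ?_
    D.gal_continuous ?_ ?_ ?_
  · intro g σ
    induction g using hecke_induction with
    | hT ℓ hℓ hℓN hℓS =>
      rw [psiHom_T]
      exact D.hecke_gal ⟨ℓ, hℓ⟩ σ
    | hU q hq hqN hqS =>
      rw [psiHom_U]
      exact D.hecke_gal ⟨q, hq⟩ σ
    | hint n =>
      rw [map_intCast]
      exact Int.cast_commute n _
    | hadd x y hx hy =>
      rw [map_add]
      exact hx.add_left hy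
    | hmul x y hx hy =>
      rw [map_mul]
      exact hx.mul_left hy
  · intro ℓ hℓ hℓN hℓS A σ hA hσ
    have hℓp : ℓ ≠ p := fun h => hℓS (h ▸ Finset.mem_coe.mpr hpS)
    rw [psiHom_T]
    exact D.eichlerShimura ⟨ℓ, hℓ⟩ hℓN hℓp A hA σ hσ
  · intro q hq hqS P hP τ hτ
    exact D.unram q hq (fun h => hqS (hNS q hq h)) (fun h => hqS (h ▸ hpS)) P hP τ hτ
  · intro k g hg
    have hdiv : ∀ h : C.H, ∃ h' : C.H, phiHom C (↑S : Set ℕ) g h = (p ^ (k + e)) • h' := by
      intro h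
      obtain ⟨w, hw⟩ := hg (C.cmpTa.symm ((1 : ℤ_[p]) ⊗ₜ[ℤ] h))
      rw [psiHom_apply, LinearEquiv.apply_symm_apply, LinearMap.baseChange_tmul] at hw
      have h1 := congrArg C.cmpTa hw
      rw [LinearEquiv.apply_symm_apply, map_smul] at h1
      exact exists_eq_smul_of_one_tmul (k + e) _ _ h1
    obtain ⟨D', hD'⟩ := hsat g (p ^ (k + e)) hdiv
    rw [hm₀eq] at hD'
    have h2 : (p ^ e) • ((m : heckeAlgebra N 2 (↑S : Set ℕ)) * g) =
        (p ^ e) • ((p : heckeAlgebra N 2 (↑S : Set ℕ)) ^ k * D') := by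
      rw [nsmul_eq_mul, nsmul_eq_mul]
      push_cast at hD' ⊢
      rw [← mul_assoc, hD']
      ring
    have h3 := nsmul_right_injective (pow_ne_zero e hp.ne_zero) h2
    rw [Ideal.mem_span_singleton']
    exact ⟨D', by rw [h3, mul_comm]⟩

/-- What S31 needs from the lower ESJ layers: a Tate datum together with comparison data, for
every prime `p` and every level `N`. -/
def TateCmpExists : Prop :=
  ∀ (p N : ℕ) [Fact p.Prime] [NeZero N],
    ∃ D : TateDatum p N, Nonempty (CmpData p N D.Ta D.hecke)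

/-- **S31, conditional form**: the frozen statement S31 from `TateCmpExists`. -/
theorem S31_of (hcmp : TateCmpExists) {p : ℕ} {N : ℕ} [NeZero N] {S : Finset ℕ}
    {𝒪 : Type} [CommRing 𝒪] [IsDomain 𝒪] [IsDiscreteValuationRing 𝒪]
    [IsAdicComplete (IsLocalRing.maximalIdeal 𝒪) 𝒪]
    {θ : CuspForm.heckeAlgebra N 2 (↑S : Set ℕ) →+* IsLocalRing.ResidueField 𝒪}
    {T : Type} [CommRing T] [IsLocalRing T] [IsNoetherianRing T]
    [IsAdicComplete (IsLocalRing.maximalIdeal T) T] [Algebra 𝒪 T] [IsLocalHom (algebraMap 𝒪 T)]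
    [Module.Finite 𝒪 T] [Module.Free 𝒪 T]
    (hp : p.Prime)
    (hp𝒪 : (p : 𝒪) ∈ IsLocalRing.maximalIdeal 𝒪) (hpS : p ∈ S)
    (hNS : ∀ q : ℕ, q.Prime → q ∣ N → q ∈ S)
    (H : CuspForm.HeckeGaloisRepDatum N (↑S : Set ℕ) 𝒪 θ T)
    (q : ℕ) (hq : q.Prime) (hqS : q ∉ S) :
    H.ρ.IsUnramifiedAt q := by
  have : Fact p.Prime := ⟨hp⟩
  obtain ⟨D, ⟨C⟩⟩ := hcmp p N
  exact isUnramifiedAt_of_torsionModules (heckeTorsionModules_of_cmpData D C S hpS hNS) hp hp𝒪 hpS
    H q hq hqS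

end Fermat.Agent.S31
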