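import Mathlib
import Fermat.Agent.S31.Torsion

/-!
# Trace and determinant congruences for Hecke–Galois data

* `trace_congr_of_pseudoChar`: a function `u : G_ℚ → T` which modulo `𝔪ⁿ` factors through a
  finite level and agrees with `tr ρ` on powers of Frobenius lifts agrees with `tr ρ` modulo `𝔪ⁿ`
  everywhere (Frobenius density).
* `det_sub_natCast_mem`: in a Hecke–Galois datum, `det ρ` is the `p`-adic cyclotomic character
  (modulo every power of the maximal ideal); `det_eq_one_of_cyclo_eq_one`.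
-/

set_option autoImplicit false

namespace Fermat.Agent.S31

open CuspForm

local notation "Qb" => AlgebraicClosure ℚ
local notation "GQ" => (AlgebraicClosure ℚ ≃ₐ[ℚ] AlgebraicClosure ℚ)

section Linear

variable {R : Type*} [CommRing R]

/-- An endomorphism of a finite free module congruent to `1` modulo `I` has determinant
congruent to `1`. -/
theorem det_sub_one_mem {V : Type*} [AddCommGroup V] [Module R V] [Module.Free R V]
    [Module.Finite R V] (I : Ideal R) (f : Module.End R V)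
    (h : ∀ v, f v - v ∈ I • (⊤ : Submodule R V)) : LinearMap.det f - 1 ∈ I := by
  classical
  let b := Module.Free.chooseBasis R V
  rw [← LinearMap.det_toMatrix b f, ← Ideal.Quotient.eq_zero_iff_mem, map_sub, map_one,
    RingHom.map_det, sub_eq_zero]
  have e : (Ideal.Quotient.mk I).mapMatrix (LinearMap.toMatrix b b f) = 1 := by
    ext i j
    have h1 := repr_mem_of_mem_smul_top b I (h (b j)) i
    rw [map_sub, Finsupp.sub_apply, Module.Basis.repr_self] at h1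
    rw [RingHom.mapMatrix_apply, Matrix.map_apply, LinearMap.toMatrix_apply, Matrix.one_apply]
    by_cases hij : i = j
    · subst hij
      rw [if_pos rfl]
      rw [Finsupp.single_eq_same] at h1
      rw [← sub_eq_zero, ← map_one (Ideal.Quotient.mk I), ← map_sub,
        Ideal.Quotient.eq_zero_iff_mem]
      exact h1
    · rw [if_neg hij]
      rw [Finsupp.single_eq_of_ne hij, sub_zero] at h1
      exact Ideal.Quotient.eq_zero_iff_mem.mpr h1
  rw [e, Matrix.det_one]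

end Linear

section Core

variable {T : Type} [CommRing T] [IsLocalRing T]

/-- If `g` and `g'` agree on a level `L` of `ρ` modulo `𝔪ⁿ`, their determinants are
congruent. -/
theorem det_sub_mem_of_agree (ρ : GaloisRepAdic T) (n : ℕ) (L : IntermediateField ℚ Qb)
    (hL : ∀ σ : GQ, (∀ x ∈ L, σ x = x) →
      ∀ v : ρ.V, ρ.ρ σ v - v ∈ (IsLocalRing.maximalIdeal T ^ n) • (⊤ : Submodule T ρ.V))
    (g g' : GQ) (hgg' : ∀ x ∈ L, g x = g' x) :
    LinearMap.det (ρ.ρ g) - LinearMap.det (ρ.ρ g') ∈ IsLocalRing.maximalIdeal T ^ n := by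
  have hfix : ∀ x ∈ L, (g'⁻¹ * g) x = x := by
    intro x hx
    rw [AlgEquiv.mul_apply, hgg' x hx]
    exact g'.symm_apply_apply x
  have e : LinearMap.det (ρ.ρ g) - LinearMap.det (ρ.ρ g') =
      LinearMap.det (ρ.ρ g') * (LinearMap.det (ρ.ρ (g'⁻¹ * g)) - 1) := by
    have hg : g = g' * (g'⁻¹ * g) := by rw [mul_inv_cancel_left]
    conv_lhs => rw [hg, map_mul, map_mul]
    ring
  rw [e]
  exact Ideal.mul_mem_left _ _ (det_sub_one_mem _ _ (hL _ hfix))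

/-- A function which modulo `𝔪ⁿ` factors through a finite level and agrees with `tr ρ` on powers
of Frobenius lifts outside a finite set of primes agrees with `tr ρ` modulo `𝔪ⁿ`. -/
theorem trace_congr_of_pseudoChar (ρ : GaloisRepAdic T) (n : ℕ)
    (F : IntermediateField ℚ Qb) [FiniteDimensional ℚ F] (S : Finset ℕ) (u : GQ → T)
    (h1 : ∀ g g' : GQ, (∀ x ∈ F, g x = g' x) → u g - u g' ∈ IsLocalRing.maximalIdeal T ^ n)
    (h2 : ∀ ℓ : ℕ, ℓ.Prime → ℓ ∉ S → ∀ (A : ValuationSubring Qb) (σ : GQ), A.LiesOverPrime ℓ →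
        A.IsFrobeniusAt σ ℓ → ∀ j : ℕ,
          u (σ ^ j) - LinearMap.trace T ρ.V (ρ.ρ (σ ^ j)) ∈ IsLocalRing.maximalIdeal T ^ n)
    (g : GQ) : u g - LinearMap.trace T ρ.V (ρ.ρ g) ∈ IsLocalRing.maximalIdeal T ^ n := by
  obtain ⟨L, hL, hLρ⟩ := ρ.isAdicContinuous n
  have : FiniteDimensional ℚ (F ⊔ L : IntermediateField ℚ Qb) :=
    IntermediateField.finiteDimensional_sup F L
  obtain ⟨ℓ, hℓ, hℓS, A, σ, k, j, hA, hσ, hgk, -⟩ :=
    Fermat.Agent.Frob.exists_frobenius_generating (F ⊔ L) S g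
  have e1 : u g - u (σ ^ k) ∈ IsLocalRing.maximalIdeal T ^ n :=
    h1 g (σ ^ k) fun x hx => hgk x ((le_sup_left : F ≤ F ⊔ L) hx)
  have e2 := h2 ℓ hℓ hℓS A σ hA hσ k
  have e3 : LinearMap.trace T ρ.V (ρ.ρ (σ ^ k)) - LinearMap.trace T ρ.V (ρ.ρ g) ∈
      IsLocalRing.maximalIdeal T ^ n :=
    trace_sub_mem_of_agree ρ n L hLρ (σ ^ k) g fun x hx =>
      (hgk x ((le_sup_right : L ≤ F ⊔ L) hx)).symm
  have e : u g - LinearMap.trace T ρ.V (ρ.ρ g) = (u g - u (σ ^ k)) +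
      (u (σ ^ k) - LinearMap.trace T ρ.V (ρ.ρ (σ ^ k))) +
      (LinearMap.trace T ρ.V (ρ.ρ (σ ^ k)) - LinearMap.trace T ρ.V (ρ.ρ g)) := by ring
  rw [e]
  exact Ideal.add_mem _ (Ideal.add_mem _ e1 e2) e3

/-- An element lying in all powers of the maximal ideal of a Noetherian local ring is zero. -/
theorem eq_zero_of_forall_mem_pow [IsNoetherianRing T] {x : T}
    (h : ∀ n : ℕ, x ∈ IsLocalRing.maximalIdeal T ^ n) : x = 0 := by
  have h1 : x ∈ ⨅ n : ℕ, IsLocalRing.maximalIdeal T ^ n := (Ideal.mem_iInf).mpr h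
  rw [Fermat.Agent.Lib.GalRep.iInf_maximalIdeal_pow_eq_bot T] at h1
  exact h1

end Core

section Hecke

variable {p : ℕ} {N : ℕ} [NeZero N] {S : Finset ℕ}
  {𝒪 : Type} [CommRing 𝒪] [IsDomain 𝒪] [IsDiscreteValuationRing 𝒪]
  [IsAdicComplete (IsLocalRing.maximalIdeal 𝒪) 𝒪]
  {θ : CuspForm.heckeAlgebra N 2 (↑S : Set ℕ) →+* IsLocalRing.ResidueField 𝒪}
  {T : Type} [CommRing T] [IsLocalRing T] [IsNoetherianRing T]
  [IsAdicComplete (IsLocalRing.maximalIdeal T) T] [Algebra 𝒪 T] [IsLocalHom (algebraMap 𝒪 T)]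
  [Module.Finite 𝒪 T] [Module.Free 𝒪 T]

/-- In a Hecke–Galois datum, the determinant of a Frobenius lift at `ℓ` is `ℓ`. -/
theorem det_frob (H : CuspForm.HeckeGaloisRepDatum N (↑S : Set ℕ) 𝒪 θ T) (ℓ : ℕ)
    (hℓ : ℓ.Prime) (hℓN : ¬ ℓ ∣ N) (hℓS : ℓ ∉ (↑S : Set ℕ)) (A : ValuationSubring Qb)
    (hA : A.LiesOverPrime ℓ) (σ : GQ) (hσ : A.IsFrobeniusAt σ ℓ) :
    LinearMap.det (H.ρ.ρ σ) = (ℓ : T) := by
  let b : Module.Basis (Fin 2) T H.ρ.V := Module.finBasisOfFinrankEq T H.ρ.V H.ρ.finrank_eq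
  have hch := H.charpoly_frob ℓ hℓ hℓN hℓS A hA σ hσ
  rw [← LinearMap.charpoly_toMatrix (H.ρ.ρ σ) b] at hch
  obtain ⟨-, hdet⟩ := trace_det_of_charpoly _ hch
  rw [← LinearMap.det_toMatrix b]
  exact hdet

/-- **The determinant of a Hecke–Galois representation is the cyclotomic character.** -/
theorem det_sub_natCast_mem [Fact p.Prime] (hp𝒪 : (p : 𝒪) ∈ IsLocalRing.maximalIdeal 𝒪)
    (hpS : p ∈ S) (H : CuspForm.HeckeGaloisRepDatum N (↑S : Set ℕ) 𝒪 θ T) (n : ℕ) (g : GQ)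
    (a : ℕ)
    (ha : (a : ℤ_[p]) - ((Fermat.Agent.ESJ.Rep.cyclo p g : ℤ_[p]ˣ) : ℤ_[p]) ∈
      Ideal.span {(p : ℤ_[p]) ^ n}) :
    LinearMap.det (H.ρ.ρ g) - (a : T) ∈ IsLocalRing.maximalIdeal T ^ n := by
  have hpT : (p : T) ∈ IsLocalRing.maximalIdeal T := natCast_mem_maximalIdeal hp𝒪
  obtain ⟨L, hL, hLρ⟩ := H.ρ.isAdicContinuous n
  obtain ⟨L', hL', hLcyc⟩ := Fermat.Agent.ESJ.Rep.cyclo_sub_one p n
  have : FiniteDimensional ℚ (L ⊔ L' : IntermediateField ℚ Qb) :=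
    IntermediateField.finiteDimensional_sup L L'
  obtain ⟨ℓ, hℓ, hℓS', A, σ, k, j, hA, hσ, hgk, -⟩ :=
    Fermat.Agent.Frob.exists_frobenius_generating (L ⊔ L') (S ∪ N.primeFactors) g
  have hℓS : ℓ ∉ (↑S : Set ℕ) := fun h => hℓS' (Finset.mem_union_left _ (Finset.mem_coe.mp h))
  have hℓN : ¬ ℓ ∣ N := fun h =>
    hℓS' (Finset.mem_union_right _ (Nat.mem_primeFactors.mpr ⟨hℓ, h, NeZero.ne N⟩))
  have hℓp : ℓ ≠ p := fun h => hℓS (h ▸ Finset.mem_coe.mpr hpS)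
  -- determinants
  have e1 : LinearMap.det (H.ρ.ρ g) - LinearMap.det (H.ρ.ρ (σ ^ k)) ∈
      IsLocalRing.maximalIdeal T ^ n :=
    det_sub_mem_of_agree H.ρ n L hLρ g (σ ^ k) fun x hx =>
      hgk x ((le_sup_left : L ≤ L ⊔ L') hx)
  have e2 : LinearMap.det (H.ρ.ρ (σ ^ k)) = ((ℓ ^ k : ℕ) : T) := by
    rw [map_pow, map_pow, det_frob H ℓ hℓ hℓN hℓS A hA σ hσ, Nat.cast_pow]
  -- cyclotomic characters
  have hfix : ∀ x ∈ (L ⊔ L' : IntermediateField ℚ Qb), ((σ ^ k)⁻¹ * g) x = x := by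
    intro x hx
    rw [AlgEquiv.mul_apply, hgk x hx]
    exact (σ ^ k).symm_apply_apply x
  obtain ⟨c, hc⟩ := hLcyc ((σ ^ k)⁻¹ * g) fun x hx => hfix x ((le_sup_right : L' ≤ L ⊔ L') hx)
  have hg : g = σ ^ k * ((σ ^ k)⁻¹ * g) := by rw [mul_inv_cancel_left]
  have e3 : ((Fermat.Agent.ESJ.Rep.cyclo p g : ℤ_[p]ˣ) : ℤ_[p]) - ((ℓ ^ k : ℕ) : ℤ_[p]) ∈
      Ideal.span {(p : ℤ_[p]) ^ n} := by
    have hσk : ((Fermat.Agent.ESJ.Rep.cyclo p (σ ^ k) : ℤ_[p]ˣ) : ℤ_[p]) = ((ℓ ^ k : ℕ) : ℤ_[p]) := by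
      rw [map_pow, Units.val_pow_eq_pow_val,
        Fermat.Agent.ESJ.Rep.cyclo_frobenius p hℓ hℓp A hA σ hσ, Nat.cast_pow]
    have e : ((Fermat.Agent.ESJ.Rep.cyclo p g : ℤ_[p]ˣ) : ℤ_[p]) - ((ℓ ^ k : ℕ) : ℤ_[p]) =
        (p : ℤ_[p]) ^ n * (((ℓ ^ k : ℕ) : ℤ_[p]) * c) := by
      conv_lhs => rw [hg, map_mul, Units.val_mul, hσk]
      linear_combination ((ℓ ^ k : ℕ) : ℤ_[p]) * hc
    rw [e]
    exact Ideal.mul_mem_right _ _ (Ideal.subset_span rfl)
  have hmod : a ≡ ℓ ^ k [MOD p ^ n] := by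
    refine modEq_of_natCast_sub_mem ?_
    have := Ideal.add_mem _ ha e3
    rwa [sub_add_sub_cancel] at this
  have e4 : ((ℓ ^ k : ℕ) : T) - (a : T) ∈ IsLocalRing.maximalIdeal T ^ n := by
    obtain ⟨d, hd⟩ := (Nat.modEq_iff_dvd.mp hmod)
    have h1 : ((ℓ ^ k : ℕ) : T) - (a : T) = (p : T) ^ n * (d : T) := by
      have := congrArg (Int.cast : ℤ → T) hd
      push_cast at this ⊢
      exact this
    rw [h1]
    exact Ideal.mul_mem_right _ _ (Ideal.pow_mem_pow hpT n)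
  have e : LinearMap.det (H.ρ.ρ g) - (a : T) =
      (LinearMap.det (H.ρ.ρ g) - LinearMap.det (H.ρ.ρ (σ ^ k))) +
        (((ℓ ^ k : ℕ) : T) - (a : T)) := by
    rw [e2]
    ring
  rw [e]
  exact Ideal.add_mem _ e1 e4

/-- The determinant is trivial on elements on which the cyclotomic character is trivial. -/
theorem det_eq_one_of_cyclo_eq_one [Fact p.Prime] (hp𝒪 : (p : 𝒪) ∈ IsLocalRing.maximalIdeal 𝒪)
    (hpS : p ∈ S) (H : CuspForm.HeckeGaloisRepDatum N (↑S : Set ℕ) 𝒪 θ T) (g : GQ)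
    (hg : Fermat.Agent.ESJ.Rep.cyclo p g = 1) : LinearMap.det (H.ρ.ρ g) = 1 := by
  rw [← sub_eq_zero]
  refine eq_zero_of_forall_mem_pow fun n => ?_
  have h := det_sub_natCast_mem hp𝒪 hpS H n g 1 (by
    rw [hg, Units.val_one, Nat.cast_one, sub_self]
    exact Ideal.zero_mem _)
  rwa [Nat.cast_one] at h

end Hecke

end Fermat.Agent.S31
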