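import Mathlib
import Fermat.Prelude.Def_GaloisRep_LocalConditions
import Fermat.Agent.S31.Cong

/-!
# Unipotent inertia (glue for S34)

`isUnipotentOnInertiaAt_of_torsionModulesU`: in a Hecke–Galois datum, the inertia at a prime
`q ≠ p` acts unipotently (characteristic polynomial `(X - 1)²`) as soon as the Hecke modules of
torsion points `M` (as in `HeckeTorsionModules`, S31/Torsion.lean) satisfy the monodromy relation
`(τ - 1)² = 0` for `τ` in the inertia groups at `q`.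

Proof: `tr ρ(τ) = 2` because `τ + χ_p(τ) τ⁻¹ = τ + τ⁻¹ = 2` on `M` and `𝕋` acts almost
faithfully; `det ρ(τ) = χ_p(τ) = 1` because the determinant is cyclotomic (S31/Cong.lean).
-/

set_option autoImplicit false

namespace Fermat.Agent.S31

open CuspForm

local notation "Qb" => AlgebraicClosure ℚ
local notation "GQ" => (AlgebraicClosure ℚ ≃ₐ[ℚ] AlgebraicClosure ℚ)

/-- The family of Hecke operators `t g` acting as `g + χ_p(g) g⁻¹` on a Hecke module with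
Galois action of finite level satisfying the Eichler–Shimura relations. -/
theorem exists_rel_family {N : ℕ} [NeZero N] {p : ℕ} [Fact p.Prime] {S : Finset ℕ}
    (hpS : p ∈ S) (K : ℕ) {M : Type*} [AddCommGroup M]
    [Module (heckeAlgebra N 2 (↑S : Set ℕ)) M]
    (gal : GQ →* Module.End (heckeAlgebra N 2 (↑S : Set ℕ)) M)
    (hlev : ∃ L : IntermediateField ℚ Qb, FiniteDimensional ℚ L ∧
      ∀ σ : GQ, (∀ x ∈ L, σ x = x) → gal σ = 1)
    (hES : ∀ (ℓ : ℕ) (hℓ : ℓ.Prime) (hℓN : ¬ ℓ ∣ N) (hℓS : ℓ ∉ (↑S : Set ℕ))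
      (A : ValuationSubring Qb) (σ : GQ), A.LiesOverPrime ℓ → A.IsFrobeniusAt σ ℓ →
      ∀ x : M, gal σ (gal σ x) -
        (heckeAlgebra.T hℓ hℓN hℓS : heckeAlgebra N 2 (↑S : Set ℕ)) • gal σ x + ℓ • x = 0) :
    ∃ (F : IntermediateField ℚ Qb) (_ : FiniteDimensional ℚ F)
      (t : GQ → heckeAlgebra N 2 (↑S : Set ℕ)),
      (∀ g : GQ, Rel gal p K g (t g)) ∧
      (∀ g g' : GQ, (∀ x ∈ F, g x = g' x) → ∀ D : heckeAlgebra N 2 (↑S : Set ℕ),
        Rel gal p K g D → Rel gal p K g' D) ∧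
      (∀ (ℓ : ℕ) (hℓ : ℓ.Prime) (hℓN : ¬ ℓ ∣ N) (hℓS : ℓ ∉ (↑S : Set ℕ))
        (A : ValuationSubring Qb) (σ : GQ), A.LiesOverPrime ℓ → A.IsFrobeniusAt σ ℓ → ∀ j : ℕ,
        Rel gal p K (σ ^ j)
          (lucas (heckeAlgebra.T hℓ hℓN hℓS) (ℓ : heckeAlgebra N 2 (↑S : Set ℕ)) j)) := by
  obtain ⟨L, hL, hLgal⟩ := hlev
  obtain ⟨L', hL', hLcyc⟩ := Fermat.Agent.ESJ.Rep.cyclo_sub_one p K
  have hfin : FiniteDimensional ℚ (L ⊔ L' : IntermediateField ℚ Qb) :=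
    IntermediateField.finiteDimensional_sup L L'
  have hagree : ∀ g g' : GQ, (∀ x ∈ (L ⊔ L' : IntermediateField ℚ Qb), g x = g' x) →
      gal g = gal g' ∧
      ((Fermat.Agent.ESJ.Rep.cyclo p g : ℤ_[p]ˣ) : ℤ_[p]) -
        ((Fermat.Agent.ESJ.Rep.cyclo p g' : ℤ_[p]ˣ) : ℤ_[p]) ∈
          Ideal.span {(p : ℤ_[p]) ^ K} := by
    intro g g' hgg'
    have hfix : ∀ x ∈ (L ⊔ L' : IntermediateField ℚ Qb), (g'⁻¹ * g) x = x := by
      intro x hx
      rw [AlgEquiv.mul_apply, hgg' x hx]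
      exact g'.symm_apply_apply x
    have hg : g = g' * (g'⁻¹ * g) := by rw [mul_inv_cancel_left]
    constructor
    · have h1 : gal (g'⁻¹ * g) = 1 :=
        hLgal _ fun x hx => hfix x ((le_sup_left : L ≤ L ⊔ L') hx)
      rw [hg, map_mul, h1, mul_one]
    · obtain ⟨c, hc⟩ := hLcyc (g'⁻¹ * g) fun x hx => hfix x ((le_sup_right : L' ≤ L ⊔ L') hx)
      have e1 : ((Fermat.Agent.ESJ.Rep.cyclo p g : ℤ_[p]ˣ) : ℤ_[p]) -
          ((Fermat.Agent.ESJ.Rep.cyclo p g' : ℤ_[p]ˣ) : ℤ_[p]) =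
          (p : ℤ_[p]) ^ K * (((Fermat.Agent.ESJ.Rep.cyclo p g' : ℤ_[p]ˣ) : ℤ_[p]) * c) := by
        conv_lhs => rw [hg, map_mul, Units.val_mul]
        linear_combination ((Fermat.Agent.ESJ.Rep.cyclo p g' : ℤ_[p]ˣ) : ℤ_[p]) * hc
      rw [e1]
      exact Ideal.mul_mem_right _ _ (Ideal.subset_span rfl)
  have hfrob : ∀ (ℓ : ℕ) (hℓ : ℓ.Prime) (hℓN : ¬ ℓ ∣ N) (hℓS : ℓ ∉ (↑S : Set ℕ))
      (A : ValuationSubring Qb) (σ : GQ), A.LiesOverPrime ℓ → A.IsFrobeniusAt σ ℓ → ∀ j : ℕ,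
      Rel gal p K (σ ^ j)
        (lucas (heckeAlgebra.T hℓ hℓN hℓS) (ℓ : heckeAlgebra N 2 (↑S : Set ℕ)) j) := by
    intro ℓ hℓ hℓN hℓS A σ hA hσ j
    have hℓp : ℓ ≠ p := fun h => hℓS (h ▸ Finset.mem_coe.mpr hpS)
    exact Rel.of_quadratic _ (Fermat.Agent.ESJ.Rep.cyclo_frobenius p hℓ hℓp A hA σ hσ)
      (hES ℓ hℓ hℓN hℓS A σ hA hσ) j
  have hex : ∀ g : GQ, ∃ D : heckeAlgebra N 2 (↑S : Set ℕ), Rel gal p K g D := by
    intro g
    obtain ⟨ℓ, hℓ, hℓS', A, σ, i, j, hA, hσ, hgi, -⟩ :=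
      Fermat.Agent.Frob.exists_frobenius_generating (L ⊔ L') (S ∪ N.primeFactors) g
    have hℓS : ℓ ∉ (↑S : Set ℕ) := fun h => hℓS' (Finset.mem_union_left _ (Finset.mem_coe.mp h))
    have hℓN : ¬ ℓ ∣ N := fun h =>
      hℓS' (Finset.mem_union_right _ (Nat.mem_primeFactors.mpr ⟨hℓ, h, NeZero.ne N⟩))
    obtain ⟨h1, h2⟩ := hagree (σ ^ i) g fun x hx => (hgi x hx).symm
    exact ⟨_, (hfrob ℓ hℓ hℓN hℓS A σ hA hσ i).congr h1 h2⟩
  choose t ht using hex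
  refine ⟨L ⊔ L', hfin, t, ht, ?_, hfrob⟩
  intro g g' hgg' D hD
  obtain ⟨h1, h2⟩ := hagree g g' hgg'
  exact hD.congr h1 h2

/-- **Geometric interface for S34**: Hecke modules of torsion points with unipotent monodromy
at `q`. Same as `HeckeTorsionModules`, with the clause "unramified outside `S`" replaced by
"`(τ - 1)² = 0` for `τ` in the inertia groups at `q`". -/
def HeckeTorsionModulesU (N : ℕ) [NeZero N] (p : ℕ) (S : Finset ℕ) (q : ℕ) : Prop :=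
  ∃ (e m : ℕ), Nat.Coprime m p ∧ ∀ k : ℕ, ∃ (M : Type) (_ : AddCommGroup M)
    (_ : Module (heckeAlgebra N 2 (↑S : Set ℕ)) M)
    (gal : GQ →* Module.End (heckeAlgebra N 2 (↑S : Set ℕ)) M),
    (∀ x : M, (p ^ (k + e)) • x = 0) ∧
    (∃ L : IntermediateField ℚ Qb, FiniteDimensional ℚ L ∧
      ∀ σ : GQ, (∀ x ∈ L, σ x = x) → gal σ = 1) ∧
    (∀ (ℓ : ℕ) (hℓ : ℓ.Prime) (hℓN : ¬ ℓ ∣ N) (hℓS : ℓ ∉ (↑S : Set ℕ))
      (A : ValuationSubring Qb) (σ : GQ), A.LiesOverPrime ℓ → A.IsFrobeniusAt σ ℓ →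
      ∀ x : M, gal σ (gal σ x) -
        (heckeAlgebra.T hℓ hℓN hℓS : heckeAlgebra N 2 (↑S : Set ℕ)) • gal σ x + ℓ • x = 0) ∧
    (∀ P : ValuationSubring Qb, P.LiesOverPrime q → ∀ τ ∈ P.inertiaSubgroupIn ℚ,
      ∀ x : M, gal τ (gal τ x) - 2 • gal τ x + x = 0) ∧
    (∀ D : heckeAlgebra N 2 (↑S : Set ℕ), (∀ x : M, D • x = 0) →
      (m : heckeAlgebra N 2 (↑S : Set ℕ)) * D ∈
        Ideal.span {(p : heckeAlgebra N 2 (↑S : Set ℕ)) ^ k})

section Hecke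

variable {p : ℕ} {N : ℕ} [NeZero N] {S : Finset ℕ}
  {𝒪 : Type} [CommRing 𝒪] [IsDomain 𝒪] [IsDiscreteValuationRing 𝒪]
  [IsAdicComplete (IsLocalRing.maximalIdeal 𝒪) 𝒪]
  {θ : CuspForm.heckeAlgebra N 2 (↑S : Set ℕ) →+* IsLocalRing.ResidueField 𝒪}
  {T : Type} [CommRing T] [IsLocalRing T] [IsNoetherianRing T]
  [IsAdicComplete (IsLocalRing.maximalIdeal T) T] [Algebra 𝒪 T] [IsLocalHom (algebraMap 𝒪 T)]
  [Module.Finite 𝒪 T] [Module.Free 𝒪 T]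

/-- `π` maps `x` with `m * x ∈ (p ^ n)` (`m` prime to `p`) into `𝔪 ^ n`. -/
theorem pi_mem_pow_of_mul_mem (hp𝒪 : (p : 𝒪) ∈ IsLocalRing.maximalIdeal 𝒪)
    (H : CuspForm.HeckeGaloisRepDatum N (↑S : Set ℕ) 𝒪 θ T) {m : ℕ} (hm : Nat.Coprime m p)
    (n : ℕ) (x : heckeAlgebra N 2 (↑S : Set ℕ))
    (hx : (m : heckeAlgebra N 2 (↑S : Set ℕ)) * x ∈
      Ideal.span {(p : heckeAlgebra N 2 (↑S : Set ℕ)) ^ n}) :
    H.π x ∈ IsLocalRing.maximalIdeal T ^ n := by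
  have hpT : (p : T) ∈ IsLocalRing.maximalIdeal T := natCast_mem_maximalIdeal hp𝒪
  have hmT : IsUnit (m : T) := isUnit_natCast_of_coprime hpT hm
  obtain ⟨y, hy⟩ := Ideal.mem_span_singleton'.mp hx
  have h1 : (m : T) * H.π x = H.π y * (p : T) ^ n := by
    have := congrArg H.π hy
    rw [map_mul, map_pow, map_natCast, map_mul, map_natCast] at this
    exact this.symm
  have h2 : (m : T) * H.π x ∈ IsLocalRing.maximalIdeal T ^ n := by
    rw [h1]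
    exact Ideal.mul_mem_left _ _ (Ideal.pow_mem_pow hpT n)
  obtain ⟨u, hu⟩ := hmT
  have h3 : H.π x = (↑u⁻¹ : T) * ((m : T) * H.π x) := by
    rw [← hu, ← mul_assoc, Units.inv_mul, one_mul]
  rw [h3]
  exact Ideal.mul_mem_left _ _ h2

/-- **S34 from the geometric interface** `HeckeTorsionModulesU`. -/
theorem isUnipotentOnInertiaAt_of_torsionModulesU {q : ℕ} (hmod : HeckeTorsionModulesU N p S q)
    (hp : p.Prime) (hp𝒪 : (p : 𝒪) ∈ IsLocalRing.maximalIdeal 𝒪) (hpS : p ∈ S)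
    (hq : q.Prime) (hqp : q ≠ p)
    (H : CuspForm.HeckeGaloisRepDatum N (↑S : Set ℕ) 𝒪 θ T) :
    H.ρ.IsUnipotentOnInertiaAt q := by
  have : Fact p.Prime := ⟨hp⟩
  intro P hP τ hτ
  have hcyc : Fermat.Agent.ESJ.Rep.cyclo p τ = 1 :=
    Fermat.Agent.ESJ.Rep.cyclo_inertia p hq hqp P hP τ hτ
  have hdet : LinearMap.det (H.ρ.ρ τ) = 1 := det_eq_one_of_cyclo_eq_one hp𝒪 hpS H τ hcyc
  have htr : LinearMap.trace T H.ρ.V (H.ρ.ρ τ) = 2 := by
    rw [← sub_eq_zero]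
    refine eq_zero_of_forall_mem_pow fun n => ?_
    obtain ⟨e, m, hm, hmod⟩ := hmod
    obtain ⟨M, _, _, gal, hM, hlev, hES, hmono, hINT⟩ := hmod n
    obtain ⟨F, hF, t, ht, hcongr, hfrob⟩ := exists_rel_family hpS (n + e) gal hlev hES
    -- `π ∘ t` agrees with the trace modulo `𝔪 ^ n`
    have hu : H.π (t τ) - LinearMap.trace T H.ρ.V (H.ρ.ρ τ) ∈ IsLocalRing.maximalIdeal T ^ n := by
      refine trace_congr_of_pseudoChar H.ρ n F (S ∪ N.primeFactors) (fun g => H.π (t g)) ?_ ?_ τ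
      · intro g g' hgg'
        rw [← map_sub]
        exact pi_mem_pow_of_mul_mem hp𝒪 H hm n _
          (hINT _ ((ht g).unique hM (hcongr g' g (fun x hx => (hgg' x hx).symm) _ (ht g'))))
      · intro ℓ hℓ hℓS' A σ hA hσ j
        have hℓS : ℓ ∉ (↑S : Set ℕ) := fun h =>
          hℓS' (Finset.mem_union_left _ (Finset.mem_coe.mp h))
        have hℓN : ¬ ℓ ∣ N := fun h =>
          hℓS' (Finset.mem_union_right _ (Nat.mem_primeFactors.mpr ⟨hℓ, h, NeZero.ne N⟩))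
        rw [trace_frob_pow H ℓ hℓ hℓN hℓS A hA σ hσ j, ← map_sub]
        exact pi_mem_pow_of_mul_mem hp𝒪 H hm n _
          (hINT _ ((ht (σ ^ j)).unique hM (hfrob ℓ hℓ hℓN hℓS A σ hA hσ j)))
    -- `2` acts as `τ + τ⁻¹`
    have hrel : Rel gal p (n + e) τ (2 : heckeAlgebra N 2 (↑S : Set ℕ)) := by
      refine ⟨1, ?_, fun x => ?_⟩
      · rw [hcyc, Units.val_one, Nat.cast_one, sub_self]
        exact Ideal.zero_mem _
      · have h1 := hmono P hP τ hτ (gal τ⁻¹ x)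
        have h2 : gal τ (gal τ⁻¹ x) = x := by
          rw [← Module.End.mul_apply, ← map_mul, mul_inv_cancel, map_one, Module.End.one_apply]
        rw [h2] at h1
        rw [one_smul, ofNat_smul_eq_nsmul (heckeAlgebra N 2 (↑S : Set ℕ)) 2 x]
        rw [sub_add_eq_add_sub, sub_eq_zero] at h1
        exact h1.symm
    have h2 : H.π (t τ) - 2 ∈ IsLocalRing.maximalIdeal T ^ n := by
      have := pi_mem_pow_of_mul_mem hp𝒪 H hm n _ (hINT _ ((ht τ).unique hM hrel))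
      rwa [map_sub, map_ofNat] at this
    have e : LinearMap.trace T H.ρ.V (H.ρ.ρ τ) - 2 =
        (H.π (t τ) - 2) - (H.π (t τ) - LinearMap.trace T H.ρ.V (H.ρ.ρ τ)) := by ring
    rw [e]
    exact Ideal.sub_mem _ h2 hu
  -- the characteristic polynomial
  let b : Module.Basis (Fin 2) T H.ρ.V := Module.finBasisOfFinrankEq T H.ρ.V H.ρ.finrank_eq
  rw [← LinearMap.charpoly_toMatrix (H.ρ.ρ τ) b, Matrix.charpoly_fin_two,
    ← LinearMap.trace_eq_matrix_trace T b, LinearMap.det_toMatrix, htr, hdet]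
  simp only [map_ofNat, map_one]
  ring

end Hecke

end Fermat.Agent.S31
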