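import Mathlib
import Fermat.Agent.ESJ.Rep.DefsA
import Fermat.Agent.S31.OfCmp
import Fermat.Agent.S31.UnipCmp

/-!
# S31 and S34 from the anemic Tate datum

The geometric layers only give the commutation of the Galois action with the Hecke operators at
the primes `ℓ ∤ N` (`ESJ.Rep.TateDatumA`, see `ESJ/Rep/DefsA.lean`).  Since the Hecke algebra
`heckeAlgebra N 2 S` with `S ⊇ {q ∣ N}` contains no `U_q`, this is enough:

* `S31_ofA : TateCmpAExists → <frozen S31>`;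
* `S34_ofA : TateCmpAMonodromyExists → <frozen S34>`.
-/

set_option autoImplicit false

namespace Fermat.Agent.S31

open CuspForm Fermat.Agent.ESJ.Rep
open scoped TensorProduct

local notation "Qb" => AlgebraicClosure ℚ
local notation "GQ" => (AlgebraicClosure ℚ ≃ₐ[ℚ] AlgebraicClosure ℚ)

/-- The Hecke action on the Tate module commutes with a family of endomorphisms as soon as the
operators at the primes `ℓ ∤ N` do (the level is supported in `S`). -/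
theorem psiHom_commute {p N : ℕ} [Fact p.Prime] [NeZero N] {Ta : Type} [AddCommGroup Ta]
    [Module ℤ_[p] Ta] {hecke : Nat.Primes → Module.End ℤ_[p] Ta} (C : CmpData p N Ta hecke)
    (S : Finset ℕ) (hNS : ∀ q : ℕ, q.Prime → q ∣ N → q ∈ S) (a : Module.End ℤ_[p] Ta)
    (ha : ∀ ℓ : Nat.Primes, ¬ (ℓ : ℕ) ∣ N → Commute (hecke ℓ) a)
    (g : heckeAlgebra N 2 (↑S : Set ℕ)) : Commute (psiHom C (↑S : Set ℕ) g) a := by
  induction g using hecke_induction with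
  | hT ℓ hℓ hℓN hℓS =>
    rw [psiHom_T]
    exact ha ⟨ℓ, hℓ⟩ hℓN
  | hU q hq hqN hqS =>
    exact absurd (Finset.mem_coe.mpr (hNS q hq hqN)) hqS
  | hint n =>
    rw [map_intCast]
    exact Int.cast_commute n _
  | hadd x y hx hy =>
    rw [map_add]
    exact hx.add_left hy
  | hmul x y hx hy =>
    rw [map_mul]
    exact hx.mul_left hy

/-- Almost-faithfulness of the Hecke action on the Tate module, from the saturation index. -/
theorem psiHom_almost_faithful {p N : ℕ} [Fact p.Prime] [NeZero N] {Ta : Type} [AddCommGroup Ta]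
    [Module ℤ_[p] Ta] {hecke : Nat.Primes → Module.End ℤ_[p] Ta} (C : CmpData p N Ta hecke)
    (S : Finset ℕ) :
    ∃ e m : ℕ, Nat.Coprime m p ∧ ∀ (k : ℕ) (g : heckeAlgebra N 2 (↑S : Set ℕ)),
      (∀ v : Ta, ∃ w : Ta, psiHom C (↑S : Set ℕ) g v = (p : ℤ_[p]) ^ (k + e) • w) →
      (m : heckeAlgebra N 2 (↑S : Set ℕ)) * g ∈
        Ideal.span {(p : heckeAlgebra N 2 (↑S : Set ℕ)) ^ k} := by
  have hp : p.Prime := Fact.out
  obtain ⟨m₀, hm₀, hsat⟩ := exists_sat_index (phiHom C (↑S : Set ℕ)) (phiHom_injective C _)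
  obtain ⟨e, m, hpm, hm₀eq⟩ := Nat.exists_eq_pow_mul_and_not_dvd hm₀.ne' p hp.ne_one
  have hcop : Nat.Coprime m p := ((Nat.Prime.coprime_iff_not_dvd hp).mpr hpm).symm
  refine ⟨e, m, hcop, ?_⟩
  intro k g hg
  have hdiv : ∀ h : C.H, ∃ h' : C.H, phiHom C (↑S : Set ℕ) g h = (p ^ (k + e)) • h' := by
    intro h
    obtain ⟨w, hw⟩ := hg (C.cmpTa.symm ((1 : ℤ_[p]) ⊗ₜ[ℤ] h))
    rw [psiHom_apply, LinearEquiv.apply_symm_apply, LinearMap.baseChange_tmul] at hw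
    have h1 := congrArg C.cmpTa hw
    rw [LinearEquiv.apply_symm_apply, map_smul] at h1
    exact exists_eq_smul_of_one_tmul (k + e) _ _ h1
  obtain ⟨D', hD'⟩ := hsat g (p ^ (k + e)) hdiv
  rw [hm₀eq] at hD'
  have h2 : (p ^ e) • ((m : heckeAlgebra N 2 (↑S : Set ℕ)) * g) =
      (p ^ e) • ((p : heckeAlgebra N 2 (↑S : Set ℕ)) ^ k * D') := by
    rw [nsmul_eq_mul, nsmul_eq_mul]
    push_cast at hD' ⊢
    rw [← mul_assoc, hD']
    ring
  have h3 := nsmul_right_injective (pow_ne_zero e hp.ne_zero) h2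
  rw [Ideal.mem_span_singleton']
  exact ⟨D', by rw [h3, mul_comm]⟩

/-- **`HeckeTorsionModules` from an anemic Tate datum with comparison data.** -/
theorem heckeTorsionModules_of_cmpDataA {p N : ℕ} [Fact p.Prime] [NeZero N] (D : TateDatumA p N)
    (C : CmpData p N D.Ta D.hecke) (S : Finset ℕ) (hpS : p ∈ S)
    (hNS : ∀ q : ℕ, q.Prime → q ∣ N → q ∈ S) : HeckeTorsionModules N p S := by
  obtain ⟨e, m, hcop, hfaith⟩ := psiHom_almost_faithful C S
  refine heckeTorsionModules_of_actions e m hcop D.Ta (psiHom C (↑S : Set ℕ)) D.gal ?_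
    D.gal_continuous ?_ ?_ hfaith
  · intro g σ
    exact psiHom_commute C S hNS (D.gal σ) (fun ℓ hℓ => D.hecke_gal ℓ hℓ σ) g
  · intro ℓ hℓ hℓN hℓS A σ hA hσ
    have hℓp : ℓ ≠ p := fun h => hℓS (h ▸ Finset.mem_coe.mpr hpS)
    rw [psiHom_T]
    exact D.eichlerShimura ⟨ℓ, hℓ⟩ hℓN hℓp A hA σ hσ
  · intro q hq hqS P hP τ hτ
    exact D.unram q hq (fun h => hqS (hNS q hq h)) (fun h => hqS (h ▸ hpS)) P hP τ hτ

/-- **S31, conditional form (anemic)**: the frozen statement S31 from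
`ESJ.Rep.TateCmpAExists`. -/
theorem S31_ofA (hcmp : TateCmpAExists) {p : ℕ} {N : ℕ} [NeZero N] {S : Finset ℕ}
    {𝒪 : Type} [CommRing 𝒪] [IsDomain 𝒪] [IsDiscreteValuationRing 𝒪]
    [IsAdicComplete (IsLocalRing.maximalIdeal 𝒪) 𝒪]
    {θ : CuspForm.heckeAlgebra N 2 (↑S : Set ℕ) →+* IsLocalRing.ResidueField 𝒪}
    {T : Type} [CommRing T] [IsLocalRing T] [IsNoetherianRing T]
    [IsAdicComplete (IsLocalRing.maximalIdeal T) T] [Algebra 𝒪 T] [IsLocalHom (algebraMap 𝒪 T)]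
    [Module.Finite 𝒪 T] [Module.Free 𝒪 T]
    (hp : p.Prime)
    (hp𝒪 : (p : 𝒪) ∈ IsLocalRing.maximalIdeal 𝒪) (hpS : p ∈ S)
    (hNS : ∀ q : ℕ, q.Prime → q ∣ N → q ∈ S)
    (H : CuspForm.HeckeGaloisRepDatum N (↑S : Set ℕ) 𝒪 θ T)
    (q : ℕ) (hq : q.Prime) (hqS : q ∉ S) :
    H.ρ.IsUnramifiedAt q := by
  have : Fact p.Prime := ⟨hp⟩
  obtain ⟨D, ⟨C⟩⟩ := hcmp p N
  exact isUnramifiedAt_of_torsionModules (heckeTorsionModules_of_cmpDataA D C S hpS hNS) hp hp𝒪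
    hpS H q hq hqS

/-- `HeckeTorsionModulesU` from an anemic Tate datum with comparison data and unipotent
monodromy at `q`. -/
theorem heckeTorsionModulesU_of_cmpDataA {p N : ℕ} [Fact p.Prime] [NeZero N]
    (D : TateDatumA p N) (C : CmpData p N D.Ta D.hecke) (S : Finset ℕ) (hpS : p ∈ S)
    (hNS : ∀ q : ℕ, q.Prime → q ∣ N → q ∈ S) (q : ℕ)
    (hmono : ∀ P : ValuationSubring Qb, P.LiesOverPrime q →
      ∀ τ ∈ P.inertiaSubgroupIn ℚ, (D.gal τ - 1) * (D.gal τ - 1) = 0) :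
    HeckeTorsionModulesU N p S q := by
  obtain ⟨e, m, hcop, hfaith⟩ := psiHom_almost_faithful C S
  refine heckeTorsionModulesU_of_actions q e m hcop D.Ta (psiHom C (↑S : Set ℕ)) D.gal ?_
    D.gal_continuous ?_ hmono hfaith
  · intro g σ
    exact psiHom_commute C S hNS (D.gal σ) (fun ℓ hℓ => D.hecke_gal ℓ hℓ σ) g
  · intro ℓ hℓ hℓN hℓS A σ hA hσ
    have hℓp : ℓ ≠ p := fun h => hℓS (h ▸ Finset.mem_coe.mpr hpS)
    rw [psiHom_T]
    exact D.eichlerShimura ⟨ℓ, hℓ⟩ hℓN hℓp A hA σ hσ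

/-- The monodromy clause (BAD-U) for an anemic Tate datum: the inertia groups at the primes
`q ≠ p` exactly dividing the level satisfy `(τ - 1)² = 0` on the Tate module. -/
def MonodromyA {p N : ℕ} [Fact p.Prime] [NeZero N] (D : TateDatumA p N) : Prop :=
  ∀ q : ℕ, q.Prime → q ≠ p → q ∣ N → ¬ q ^ 2 ∣ N →
    ∀ P : ValuationSubring Qb, P.LiesOverPrime q →
      ∀ τ ∈ P.inertiaSubgroupIn ℚ, (D.gal τ - 1) * (D.gal τ - 1) = 0

/-- What S34 needs from the lower layers: an anemic Tate datum with comparison data and the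
monodromy clause. -/
def TateCmpAMonodromyExists : Prop :=
  ∀ (p N : ℕ) [Fact p.Prime] [NeZero N],
    ∃ D : TateDatumA p N, Nonempty (CmpData p N D.Ta D.hecke) ∧ MonodromyA D

/-- **S34, conditional form (anemic)**: the frozen statement S34 from
`TateCmpAMonodromyExists`. -/
theorem S34_ofA (hcmp : TateCmpAMonodromyExists)
    {𝒪 : Type} [CommRing 𝒪] [IsDomain 𝒪] [IsDiscreteValuationRing 𝒪]
    [IsAdicComplete (IsLocalRing.maximalIdeal 𝒪) 𝒪]
    {p : ℕ} (hp : p.Prime) (hp𝒪 : (p : 𝒪) ∈ IsLocalRing.maximalIdeal 𝒪)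
    {N : ℕ} [NeZero N] {S : Finset ℕ} (hpS : p ∈ S)
    (hNS : ∀ q : ℕ, q.Prime → q ∣ N → q ∈ S)
    {θ : CuspForm.heckeAlgebra N 2 (↑S : Set ℕ) →+* IsLocalRing.ResidueField 𝒪}
    {T : Type} [CommRing T] [IsLocalRing T] [IsNoetherianRing T]
    [IsAdicComplete (IsLocalRing.maximalIdeal T) T] [Algebra 𝒪 T] [IsLocalHom (algebraMap 𝒪 T)]
    [Module.Finite 𝒪 T] [Module.Free 𝒪 T]
    (H : CuspForm.HeckeGaloisRepDatum N (↑S : Set ℕ) 𝒪 θ T)
    (q : ℕ) (hq : q.Prime) (hqp : q ≠ p) (hqN : q ∣ N) (hq2 : ¬ q ^ 2 ∣ N) :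
    H.ρ.IsUnipotentOnInertiaAt q := by
  have : Fact p.Prime := ⟨hp⟩
  obtain ⟨D, ⟨C⟩, hmono⟩ := hcmp p N
  exact isUnipotentOnInertiaAt_of_torsionModulesU
    (heckeTorsionModulesU_of_cmpDataA D C S hpS hNS q (hmono q hq hqp hqN hq2)) hp hp𝒪 hpS hq
    hqp H

end Fermat.Agent.S31
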